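import Fermat.Agent.EisensteinTate.Tate
import Mathlib.Algebra.Module.Torsion.Basic
import Mathlib.RingTheory.Ideal.IdempotentFG
import Mathlib.RingTheory.Filtration
import Mathlib.RingTheory.PrincipalIdealDomain
import Mathlib.LinearAlgebra.FreeModule.Finite.Matrix

/-!
# The primary part of torsion at an ideal

The primary part of the `p`-power torsion of a module at an ideal containing `p`: it is cut out by
compatible ring elements acting as idempotents, so its Tate module is a direct summand of the
whole Tate module, lying in the span of the operators.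
-/

noncomputable section

namespace Fermat.Agent.EisensteinTate

open CarayolReduction (tateModule tateModule_pow_smul tateModule_pow_smul_add
  tateModule_eq_zero_of_pow_smul)

variable {T : Type*} [CommRing T] {J : Type*} [AddCommGroup J] [Module T J]

/-- Operators commute with natural multiples. -/
lemma smul_nsmul_comm (t : T) (m : ℕ) (x : J) : t • m • x = m • t • x :=
  map_nsmul (DistribSMul.toAddMonoidHom J t) m x

variable (J) in
/-- The elements killed by `p^r` and by a power of `P`. -/
def primary (p : ℕ) (P : Ideal T) (r : ℕ) : Submodule T J where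
  carrier := {x | p ^ r • x = 0 ∧ ∃ k : ℕ, ∀ t ∈ P ^ k, t • x = 0}
  zero_mem' := ⟨smul_zero _, 0, fun t _ => smul_zero _⟩
  add_mem' := by
    rintro a b ⟨ha, ka, ha'⟩ ⟨hb, kb, hb'⟩
    refine ⟨by rw [smul_add, ha, hb, add_zero], max ka kb, fun t ht => ?_⟩
    rw [smul_add, ha' t (Ideal.pow_le_pow_right (le_max_left _ _) ht),
      hb' t (Ideal.pow_le_pow_right (le_max_right _ _) ht), add_zero]
  smul_mem' := by
    rintro c x ⟨hx, k, hk⟩
    refine ⟨?_, k, fun t ht => ?_⟩
    · rw [← smul_nsmul_comm, hx, smul_zero]
    · rw [smul_smul, mul_comm, ← smul_smul, hk t ht, smul_zero]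

variable {p : ℕ} {P : Ideal T}

/-- Membership in the primary part. -/
lemma mem_primary {r : ℕ} {x : J} :
    x ∈ primary J p P r ↔ p ^ r • x = 0 ∧ ∃ k : ℕ, ∀ t ∈ P ^ k, t • x = 0 := Iff.rfl

/-- The primary parts increase with the exponent. -/
lemma primary_mono {r s : ℕ} (hrs : r ≤ s) : primary J p P r ≤ primary J p P s := by
  rintro x ⟨hx, hk⟩
  refine ⟨?_, hk⟩
  rw [← Nat.sub_add_cancel hrs, pow_add, mul_smul, hx, smul_zero]

/-- The action of the ring on the `m`-torsion. -/
def torsEnd (m : ℕ) : T →+* AddMonoid.End (tors J m) where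
  toFun t :=
    ({ toFun := fun x => ⟨t • (x : J), by
        rw [mem_tors, ← smul_nsmul_comm, mem_tors.mp x.2, smul_zero]⟩
       map_zero' := Subtype.ext (smul_zero t)
       map_add' := fun a b => Subtype.ext (smul_add t (a : J) b) } : tors J m →+ tors J m)
  map_one' := AddMonoidHom.ext fun x => Subtype.ext (one_smul T (x : J))
  map_mul' a b := AddMonoidHom.ext fun x => Subtype.ext (mul_smul a b (x : J))
  map_zero' := AddMonoidHom.ext fun x => Subtype.ext (zero_smul T (x : J))
  map_add' a b := AddMonoidHom.ext fun x => Subtype.ext (add_smul a b (x : J))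

/-- In a finite ring some power of every ideal is idempotent, and every further power equals
it. -/
lemma exists_pow_stable {R : Type*} [CommRing R] [Finite R] (I : Ideal R) :
    ∃ K : ℕ, ∀ k : ℕ, I ^ (K + k) = I ^ K := by
  have : Finite (Ideal R) := Finite.of_injective (fun J => (J : Set R)) SetLike.coe_injective
  obtain ⟨i, j, hne, heq⟩ := Finite.exists_ne_map_eq_of_infinite (fun n : ℕ => I ^ n)
  obtain ⟨i, j, hij, heq⟩ : ∃ i j, i < j ∧ I ^ i = I ^ j := by
    rcases lt_or_gt_of_ne hne with h | h
    · exact ⟨i, j, h, heq⟩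
    · exact ⟨j, i, h, heq.symm⟩
  have h1 : I ^ (i + 1) = I ^ i :=
    le_antisymm (Ideal.pow_le_pow_right (by omega))
      (heq.le.trans (Ideal.pow_le_pow_right (by omega)))
  refine ⟨i, fun k => ?_⟩
  induction k with
  | zero => rfl
  | succ k ih =>
    show I ^ (i + k + 1) = I ^ i
    rw [pow_succ, ih, ← pow_succ, h1]

/-- An element acting on the `p^r`-torsion as the projection to the primary part. -/
theorem exists_projector (r : ℕ) [Finite (tors J (p ^ r))] (P : Ideal T) :
    ∃ e : T, ∀ x : J, p ^ r • x = 0 →
      e • x ∈ primary J p P r ∧ (x ∈ primary J p P r → e • x = x) := by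
  let φ := torsEnd (T := T) (J := J) (p ^ r)
  have : Finite (AddMonoid.End (tors J (p ^ r))) :=
    Finite.of_injective (fun f => (f : tors J (p ^ r) → tors J (p ^ r))) DFunLike.coe_injective
  have : Finite (T ⧸ RingHom.ker φ) :=
    Finite.of_injective _ (RingHom.kerLift_injective φ)
  let q := Ideal.Quotient.mk (RingHom.ker φ)
  have hq : Function.Surjective q := Ideal.Quotient.mk_surjective
  have hqx : ∀ {a b : T}, q a = q b → ∀ x : J, p ^ r • x = 0 → a • x = b • x := by
    intro a b hab x hx
    have h := RingHom.mem_ker.mp (Ideal.Quotient.eq.mp hab)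
    rw [map_sub, sub_eq_zero] at h
    exact congrArg Subtype.val (DFunLike.congr_fun h ⟨x, hx⟩)
  obtain ⟨K, hK⟩ := exists_pow_stable (P.map q)
  have hid : IsIdempotentElem (P.map q ^ K) := by
    rw [IsIdempotentElem, ← pow_add, hK]
  obtain ⟨f, hf, hfI⟩ := (Ideal.isIdempotentElem_iff_of_fg _
    (IsNoetherian.noetherian _)).mp hid
  obtain ⟨e, he⟩ := hq (1 - f)
  refine ⟨e, fun x hx => ⟨⟨?_, K, fun t ht => ?_⟩, ?_⟩⟩
  · rw [← smul_nsmul_comm, hx, smul_zero]
  · have hmem : q t ∈ P.map q ^ K := by
      rw [← Ideal.map_pow]
      exact Ideal.mem_map_of_mem q ht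
    rw [hfI] at hmem
    obtain ⟨c, hc⟩ := Submodule.mem_span_singleton.mp hmem
    rw [smul_smul]
    have h0 : q (t * e) = q 0 := by
      rw [map_mul, map_zero, he, ← hc, smul_eq_mul, mul_sub, mul_one, mul_assoc, hf.eq, sub_self]
    rw [hqx h0 x hx, zero_smul]
  · rintro ⟨-, k, hk⟩
    have hf' : f ∈ (P ^ k).map q := by
      rw [Ideal.map_pow]
      refine Ideal.pow_le_pow_right (le_add_self : k ≤ K + k) ?_
      rw [hK, hfI]
      exact Submodule.mem_span_singleton_self f
    obtain ⟨t, ht, htf⟩ := (Ideal.mem_map_iff_of_surjective q hq).mp hf'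
    have h1 : q e = q (1 - t) := by rw [he, map_sub, map_one, htf]
    rw [hqx h1 x hx, sub_smul, one_smul, hk t ht, sub_zero]

section Tate

variable [Fact p.Prime]

/-- The action of the ring on the Tate module. -/
def tateEnd : T →+* Module.End ℤ_[p] (tateModule J p) where
  toFun t :=
    { toFun := fun x => ⟨fun n => t • x.1 n, by
        refine ⟨by simp [x.2.1], fun n => ?_⟩
        rw [← smul_nsmul_comm, x.2.2]⟩
      map_add' := fun a b => Subtype.ext (funext fun n => smul_add t (a.1 n) (b.1 n))
      map_smul' := fun a x => Subtype.ext (funext fun n => by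
        show t • (a • x).1 n = _
        simp only [padic_smul_apply, RingHom.id_apply]
        exact smul_nsmul_comm t _ _) }
  map_one' := LinearMap.ext fun x => Subtype.ext (funext fun n => one_smul T (x.1 n))
  map_mul' a b := LinearMap.ext fun x => Subtype.ext (funext fun n => mul_smul a b (x.1 n))
  map_zero' := LinearMap.ext fun x => Subtype.ext (funext fun n => zero_smul T (x.1 n))
  map_add' a b := LinearMap.ext fun x => Subtype.ext (funext fun n => add_smul a b (x.1 n))

/-- An operator acts on the Tate module level by level. -/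
@[simp] lemma tateEnd_apply (t : T) (x : tateModule J p) (n : ℕ) :
    (tateEnd t x).1 n = t • x.1 n := rfl

variable (J p P) in
/-- The Tate module of the primary part. -/
def primaryTate : Submodule ℤ_[p] (tateModule J p) where
  carrier := {x | ∀ r, x.1 r ∈ primary J p P r}
  zero_mem' _ := Submodule.zero_mem _
  add_mem' ha hb r := (primary J p P r).add_mem (ha r) (hb r)
  smul_mem' a x hx r := by
    rw [padic_smul_apply]
    exact nsmul_mem (hx r) _

/-- The action of the ring on the Tate module of the primary part. -/
def primaryAct : T →+* Module.End ℤ_[p] (primaryTate J p P) where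
  toFun t := (tateEnd t).restrict fun _ hx r => (primary J p P r).smul_mem t (hx r)
  map_one' := LinearMap.ext fun x => Subtype.ext (Subtype.ext (funext fun n =>
    one_smul T ((x : tateModule J p).1 n)))
  map_mul' a b := LinearMap.ext fun x => Subtype.ext (Subtype.ext (funext fun n =>
    mul_smul a b ((x : tateModule J p).1 n)))
  map_zero' := LinearMap.ext fun x => Subtype.ext (Subtype.ext (funext fun n =>
    zero_smul T ((x : tateModule J p).1 n)))
  map_add' a b := LinearMap.ext fun x => Subtype.ext (Subtype.ext (funext fun n =>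
    add_smul a b ((x : tateModule J p).1 n)))

@[simp] lemma primaryAct_apply (t : T) (x : primaryTate J p P) (n : ℕ) :
    (primaryAct t x : tateModule J p).1 n = t • (x : tateModule J p).1 n := rfl

variable (J p P) in
/-- The `r`-th component. -/
def primaryProj (r : ℕ) : primaryTate J p P →+ primary J p P r where
  toFun x := ⟨(x : tateModule J p).1 r, x.2 r⟩
  map_zero' := rfl
  map_add' _ _ := rfl

@[simp] lemma coe_primaryProj (r : ℕ) (x : primaryTate J p P) :
    (primaryProj J p P r x : J) = (x : tateModule J p).1 r := rfl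

end Tate

section Galois

variable {Γ : Type*} [Monoid Γ] [DistribMulAction Γ J] [SMulCommClass Γ T J]

lemma smul_mem_primary (g : Γ) {r : ℕ} {x : J} (hx : x ∈ primary J p P r) :
    g • x ∈ primary J p P r := by
  obtain ⟨hx, k, hk⟩ := hx
  refine ⟨?_, k, fun t ht => ?_⟩
  · show p ^ r • DistribSMul.toAddMonoidHom J g x = 0
    rw [← map_nsmul, hx, map_zero]
  · rw [← smul_comm g t x, hk t ht, smul_zero]

instance instDistribMulActionPrimary (r : ℕ) : DistribMulAction Γ (primary J p P r) where
  smul g x := ⟨g • (x : J), smul_mem_primary g x.2⟩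
  one_smul x := Subtype.ext (one_smul Γ (x : J))
  mul_smul g h x := Subtype.ext (mul_smul g h (x : J))
  smul_zero g := Subtype.ext (smul_zero g)
  smul_add g x y := Subtype.ext (smul_add g (x : J) y)

@[simp] lemma coe_smul_primary (g : Γ) {r : ℕ} (x : primary J p P r) :
    ((g • x : primary J p P r) : J) = g • (x : J) := rfl

instance instSMulCommClassPrimary (r : ℕ) : SMulCommClass Γ T (primary J p P r) :=
  ⟨fun g t x => Subtype.ext (smul_comm g t (x : J))⟩

variable [Fact p.Prime]

instance instDistribMulActionTate : DistribMulAction Γ (tateModule J p) where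
  smul g x := ⟨fun n => g • x.1 n, by
    refine ⟨by simp [x.2.1], fun n => ?_⟩
    show p • g • x.1 (n + 1) = g • x.1 n
    rw [← x.2.2 n]
    exact (map_nsmul (DistribSMul.toAddMonoidHom J g) p _).symm⟩
  one_smul x := Subtype.ext (funext fun n => one_smul Γ (x.1 n))
  mul_smul g h x := Subtype.ext (funext fun n => mul_smul g h (x.1 n))
  smul_zero g := Subtype.ext (funext fun _ => smul_zero g)
  smul_add g x y := Subtype.ext (funext fun n => smul_add g (x.1 n) (y.1 n))

omit [Fact p.Prime] in
@[simp] lemma smul_tate_apply (g : Γ) (x : tateModule J p) (n : ℕ) : (g • x).1 n = g • x.1 n :=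
  rfl

instance instSMulCommClassTate : SMulCommClass Γ ℤ_[p] (tateModule J p) :=
  ⟨fun g a x => Subtype.ext (funext fun n => by
    show g • (a • x).1 n = (a • (g • x)).1 n
    simp only [padic_smul_apply, smul_tate_apply]
    exact map_nsmul (DistribSMul.toAddMonoidHom J g) _ _)⟩

instance instDistribMulActionPrimaryTate : DistribMulAction Γ (primaryTate J p P) where
  smul g x := ⟨g • (x : tateModule J p), fun r => smul_mem_primary g (x.2 r)⟩
  one_smul x := Subtype.ext (one_smul Γ (x : tateModule J p))
  mul_smul g h x := Subtype.ext (mul_smul g h (x : tateModule J p))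
  smul_zero g := Subtype.ext (smul_zero g)
  smul_add g x y := Subtype.ext (smul_add g (x : tateModule J p) y)

@[simp] lemma coe_smul_primaryTate (g : Γ) (x : primaryTate J p P) :
    ((g • x : primaryTate J p P) : tateModule J p) = g • (x : tateModule J p) := rfl

instance instSMulCommClassPrimaryTate : SMulCommClass Γ ℤ_[p] (primaryTate J p P) :=
  ⟨fun g a x => Subtype.ext (smul_comm g a (x : tateModule J p))⟩

end Galois

namespace HasTorsionRank

variable [Fact p.Prime] {D : ℕ} (h : HasTorsionRank J p D) (P : Ideal T)

include h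

/-- The chosen projector on the `p^r`-torsion. -/
def idem (r : ℕ) : T :=
  haveI := h.finite_tors r
  (exists_projector (J := J) (p := p) r P).choose

/-- The idempotent maps torsion into the primary part. -/
theorem idem_mem {r : ℕ} {x : J} (hx : p ^ r • x = 0) : h.idem P r • x ∈ primary J p P r := by
  have := h.finite_tors r
  exact ((exists_projector (J := J) (p := p) r P).choose_spec x hx).1

/-- The idempotent fixes the primary part. -/
theorem idem_eq {r : ℕ} {x : J} (hx : x ∈ primary J p P r) : h.idem P r • x = x := by
  have := h.finite_tors r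
  exact ((exists_projector (J := J) (p := p) r P).choose_spec x hx.1).2 hx

/-- The projectors are compatible. -/
theorem idem_compat {r s : ℕ} (hrs : r ≤ s) {x : J} (hx : p ^ r • x = 0) :
    h.idem P s • x = h.idem P r • x := by
  have hxs : p ^ s • x = 0 := by
    rw [← Nat.sub_add_cancel hrs, pow_add, mul_smul, hx, smul_zero]
  have h1 : h.idem P s • x ∈ primary J p P r :=
    ⟨by rw [← smul_nsmul_comm, hx, smul_zero], (h.idem_mem P hxs).2⟩
  have h2 : h.idem P s • (h.idem P r • x) = h.idem P r • x :=
    h.idem_eq P (primary_mono hrs (h.idem_mem P hx))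
  rw [← h2, smul_comm (h.idem P s) (h.idem P r), h.idem_eq P h1]

/-- The projector of the Tate module. -/
def tateProjector : Module.End ℤ_[p] (tateModule J p) where
  toFun x := ⟨fun n => h.idem P n • x.1 n, by
    refine ⟨by simp [x.2.1], fun n => ?_⟩
    rw [← smul_nsmul_comm, x.2.2, h.idem_compat P (Nat.le_succ n) (tateModule_pow_smul x n)]⟩
  map_add' a b := Subtype.ext (funext fun n => smul_add (h.idem P n) (a.1 n) (b.1 n))
  map_smul' a x := Subtype.ext (funext fun n => by
    show h.idem P n • (a • x).1 n = _
    simp only [padic_smul_apply, RingHom.id_apply]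
    exact smul_nsmul_comm _ _ _)

@[simp] lemma tateProjector_apply (x : tateModule J p) (n : ℕ) :
    (h.tateProjector P x).1 n = h.idem P n • x.1 n := rfl

/-- The projector maps into the primary Tate module. -/
theorem tateProjector_mem (x : tateModule J p) : h.tateProjector P x ∈ primaryTate J p P :=
  fun r => h.idem_mem P (tateModule_pow_smul x r)

/-- The projector fixes the primary Tate module. -/
theorem tateProjector_eq {x : tateModule J p} (hx : x ∈ primaryTate J p P) :
    h.tateProjector P x = x :=
  Subtype.ext (funext fun n => h.idem_eq P (hx n))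

/-- The primary Tate module maps onto every primary level. -/
theorem primaryProj_surjective (r : ℕ) : Function.Surjective (primaryProj J p P r) := by
  rintro ⟨x, hx⟩
  obtain ⟨w, hw⟩ := h.proj_surjective r ⟨x, hx.1⟩
  refine ⟨⟨h.tateProjector P w, h.tateProjector_mem P w⟩, Subtype.ext ?_⟩
  show h.idem P r • w.1 r = x
  rw [show w.1 r = x from congrArg Subtype.val hw, h.idem_eq P hx]

/-- The kernel of the `r`-th component is `p ^ r` times the module. -/
theorem primaryProj_eq_zero_iff {r : ℕ} {x : primaryTate J p P} :
    primaryProj J p P r x = 0 ↔ ∃ y, x = p ^ r • y := by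
  constructor
  · intro hx
    obtain ⟨y, hy⟩ := exists_eq_pow_smul (x := (x : tateModule J p)) (congrArg Subtype.val hx)
    refine ⟨⟨h.tateProjector P y, h.tateProjector_mem P y⟩, Subtype.ext ?_⟩
    rw [Submodule.coe_smul_of_tower]
    show (x : tateModule J p) = p ^ r • h.tateProjector P y
    rw [← Nat.cast_smul_eq_nsmul ℤ_[p], ← map_smul, Nat.cast_pow, ← hy,
      h.tateProjector_eq P x.2]
  · rintro ⟨y, rfl⟩
    refine Subtype.ext ?_
    show (((p ^ r • y : primaryTate J p P) : tateModule J p)).1 r = 0
    rw [Submodule.coe_smul_of_tower, ← Nat.cast_smul_eq_nsmul ℤ_[p], natCast_padic_smul,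
      tateModule_pow_smul]

/-- The primary Tate module is finitely generated over `ℤ_p`. -/
theorem primaryTate_finite : Module.Finite ℤ_[p] (primaryTate J p P) := by
  have := h.finite
  exact Module.Finite.of_fg (IsNoetherian.noetherian _)

/-- The primary Tate module is free. -/
theorem primaryTate_free : Module.Free ℤ_[p] (primaryTate J p P) := by
  have := h.free
  have := h.finite
  infer_instance

/-- The projector lies in the `ℤ_p`-span of the operators. -/
theorem tateProjector_mem_span :
    h.tateProjector P ∈ Submodule.span ℤ_[p]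
      (Set.range (tateEnd : T →+* Module.End ℤ_[p] (tateModule J p))) := by
  have := h.free
  have := h.finite
  set B := Submodule.span ℤ_[p]
    (Set.range (tateEnd : T →+* Module.End ℤ_[p] (tateModule J p)))
  set q := B.mkQ
  have hr : ∀ r, q (h.tateProjector P) ∈
      (Ideal.span {(p : ℤ_[p])}) ^ r •
        (⊤ : Submodule ℤ_[p] (Module.End ℤ_[p] (tateModule J p) ⧸ B)) := by
    intro r
    have hdiff : ∀ x : tateModule J p, ∃ y : tateModule J p,
        (p : ℤ_[p]) ^ r • y = h.tateProjector P x - tateEnd (h.idem P r) x := by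
      intro x
      obtain ⟨y, hy⟩ := exists_eq_pow_smul (n := r)
        (x := h.tateProjector P x - tateEnd (h.idem P r) x) (by
          show h.idem P r • x.1 r - h.idem P r • x.1 r = 0
          exact sub_self _)
      exact ⟨y, hy.symm⟩
    choose S hS using hdiff
    have hinj : Function.Injective fun y : tateModule J p => (p : ℤ_[p]) ^ r • y := by
      intro a b hab
      have h0 : p ^ r • (a - b) = 0 := by
        rw [← Nat.cast_smul_eq_nsmul ℤ_[p], Nat.cast_pow, smul_sub, sub_eq_zero]
        exact hab
      exact sub_eq_zero.mp (tateModule_eq_zero_of_pow_smul h0)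
    let S' : Module.End ℤ_[p] (tateModule J p) :=
      { toFun := S
        map_add' := fun a b => hinj (by simp only [smul_add, hS, map_add]; abel)
        map_smul' := fun c a => hinj (by
          simp only [RingHom.id_apply, hS, map_smul, smul_comm ((p : ℤ_[p]) ^ r) c, smul_sub]) }
    have heq : h.tateProjector P = tateEnd (h.idem P r) + (p : ℤ_[p]) ^ r • S' := by
      refine LinearMap.ext fun x => ?_
      rw [LinearMap.add_apply, LinearMap.smul_apply]
      show _ = tateEnd (h.idem P r) x + (p : ℤ_[p]) ^ r • S x
      rw [hS, add_sub_cancel]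
    have hzero : q (tateEnd (h.idem P r)) = 0 :=
      (Submodule.Quotient.mk_eq_zero B).mpr (Submodule.subset_span ⟨_, rfl⟩)
    rw [heq, map_add, hzero, zero_add, map_smul]
    exact Submodule.smul_mem_smul (Ideal.pow_mem_pow (Ideal.mem_span_singleton_self _) _)
      Submodule.mem_top
  have h0 := Ideal.iInf_pow_smul_eq_bot_of_isLocalRing (I := Ideal.span {(p : ℤ_[p])})
    (M := Module.End ℤ_[p] (tateModule J p) ⧸ B) (by
      rw [Ne, Ideal.span_singleton_eq_top]
      exact PadicInt.p_nonunit)
  have hmem : q (h.tateProjector P) ∈ (⊥ : Submodule ℤ_[p] _) :=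
    h0 ▸ Submodule.mem_iInf _ |>.mpr hr
  exact (Submodule.Quotient.mk_eq_zero B).mp ((Submodule.mem_bot ℤ_[p]).mp hmem)

end HasTorsionRank

end Fermat.Agent.EisensteinTate
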