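import Fermat.Agent.EisensteinTate.Tate
import Mathlib.LinearAlgebra.Matrix.Charpoly.Coeff
import Mathlib.LinearAlgebra.Matrix.ToLin
import Mathlib.GroupTheory.Index
import Mathlib.GroupTheory.SpecificGroups.Cyclic
import Mathlib.GroupTheory.OrderOfElement
import Mathlib.Tactic.LinearCombination

/-!
# Intertwined `p`-adic matrices and torsion coordinates

Two `p`-adic matrices intertwined modulo every power of `p` by maps with bounded cokernel have
the same characteristic polynomial.
A basis of the Tate module gives coordinates on every torsion level, in which an endomorphism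
is the reduction of its matrix.
-/

noncomputable section

namespace Fermat.Agent.EisensteinTate

open Matrix Polynomial
open CarayolReduction (tateModule tateModule_pow_smul)

variable {p : ℕ} [hp : Fact p.Prime] {D : ℕ}

/-- If the kernel of an endomorphism of `(ℤ/p^r)^D` is killed by `d ≠ 0`, then the range contains
`p^C` times everything, with `C` independent of `r`. -/
theorem pow_smul_mem_range {r d : ℕ} (hd : d ≠ 0)
    (Φ : (Fin D → ZMod (p ^ r)) →+ (Fin D → ZMod (p ^ r)))
    (hker : ∀ c, Φ c = 0 → d • c = 0) (y : Fin D → ZMod (p ^ r)) :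
    p ^ (d.factorization p * D) • y ∈ Φ.range := by
  classical
  have hp' : p.Prime := hp.out
  set a := d.factorization p with ha
  have hpa : ∀ x : Φ.ker, ∀ i, p ^ a • (x : Fin D → ZMod (p ^ r)) i = 0 := by
    intro x i
    have h1 : addOrderOf ((x : Fin D → ZMod (p ^ r)) i) ∣ d :=
      addOrderOf_dvd_of_nsmul_eq_zero (congrFun (hker _ x.2) i)
    have h2 : addOrderOf ((x : Fin D → ZMod (p ^ r)) i) ∣ p ^ r :=
      addOrderOf_dvd_of_nsmul_eq_zero (by rw [nsmul_eq_mul, ZMod.natCast_self, zero_mul])
    obtain ⟨j, -, hj⟩ := (Nat.dvd_prime_pow hp').mp h2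
    rw [hj] at h1
    have hja : j ≤ a := (hp'.pow_dvd_iff_le_factorization hd).mp h1
    exact addOrderOf_dvd_iff_nsmul_eq_zero.mp (hj ▸ pow_dvd_pow p hja)
  let emb : Φ.ker → (Fin D → {z : ZMod (p ^ r) // p ^ a • z = 0}) := fun x i => ⟨_, hpa x i⟩
  have hemb : Function.Injective emb := fun x x' h =>
    Subtype.ext (funext fun i => congrArg Subtype.val (congrFun h i))
  have hle : Nat.card Φ.ker ≤ p ^ (a * D) := by
    refine (Nat.card_le_card_of_injective emb hemb).trans ?_
    rw [Nat.card_fun, Nat.card_fin, pow_mul]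
    refine Nat.pow_le_pow_left ?_ D
    have h := IsAddCyclic.card_nsmul_eq_zero_le (α := ZMod (p ^ r)) (n := p ^ a)
      (pow_pos hp'.pos a)
    rwa [Nat.card_eq_fintype_card, Fintype.card_subtype]
  set Q := (Fin D → ZMod (p ^ r)) ⧸ Φ.range
  have hQ : Nat.card Q = Nat.card Φ.ker := by
    have h1 := AddSubgroup.card_eq_card_quotient_mul_card_addSubgroup Φ.range
    have h2 := AddSubgroup.card_eq_card_quotient_mul_card_addSubgroup Φ.ker
    rw [Nat.card_congr (QuotientAddGroup.quotientKerEquivRange Φ).toEquiv] at h2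
    have hpos : 0 < Nat.card Φ.range := Nat.card_pos
    rw [h2, mul_comm] at h1
    exact (Nat.eq_of_mul_eq_mul_right hpos h1).symm
  have hdvd : Nat.card Q ∣ p ^ (a * D) := by
    have h1 := AddSubgroup.card_eq_card_quotient_mul_card_addSubgroup Φ.range
    rw [Nat.card_fun, Nat.card_fin, Nat.card_zmod, ← pow_mul] at h1
    obtain ⟨j, -, hj⟩ := (Nat.dvd_prime_pow hp').mp ⟨_, h1⟩
    rw [hj]
    refine pow_dvd_pow p ((Nat.pow_le_pow_iff_right hp'.one_lt).mp ?_)
    rw [← hj, hQ]
    exact hle
  rw [← QuotientAddGroup.eq_zero_iff, QuotientAddGroup.mk_nsmul]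
  obtain ⟨k, hk⟩ := hdvd
  rw [hk, mul_nsmul, card_nsmul_eq_zero', smul_zero]

/-- Reduction of a `p`-adic matrix modulo `p^r`. -/
abbrev redMat (r : ℕ) (A : Matrix (Fin D) (Fin D) ℤ_[p]) :
    Matrix (Fin D) (Fin D) (ZMod (p ^ r)) :=
  A.map (PadicInt.toZModPow r)

/-- Matrices intertwined modulo every `p^r` by maps with bounded cokernel have equal characteristic
polynomials. -/
theorem charpoly_eq_of_intertwine (A B : Matrix (Fin D) (Fin D) ℤ_[p]) (C : ℕ)
    (h : ∀ r, ∃ Φ : (Fin D → ZMod (p ^ r)) →+ (Fin D → ZMod (p ^ r)),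
      (∀ c, Φ (redMat r A *ᵥ c) = redMat r B *ᵥ Φ c) ∧
        ∀ y : Fin D → ZMod (p ^ r), p ^ C • y ∈ Φ.range) :
    A.charpoly = B.charpoly := by
  classical
  refine Polynomial.ext fun n => ?_
  have hz : (p : ℤ_[p]) ^ (C * D) * (A.charpoly.coeff n - B.charpoly.coeff n) = 0 := by
    refine PadicInt.ext_of_toZModPow.mp fun r => ?_
    obtain ⟨Φ, hΦ, hrange⟩ := h r
    let φ := Φ.toZModLinearMap (p ^ r)
    set M := LinearMap.toMatrix' φ
    have hM : ∀ c, M *ᵥ c = Φ c := fun c => by
      rw [← Matrix.toLin'_apply, Matrix.toLin'_toMatrix']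
      rfl
    choose v hv using fun i : Fin D => hrange (Pi.single i 1)
    let Ψ : Matrix (Fin D) (Fin D) (ZMod (p ^ r)) := Matrix.of fun i j => v j i
    have hMA : M * redMat r A = redMat r B * M := by
      refine Matrix.ext_of_mulVec_single fun i => ?_
      rw [← Matrix.mulVec_mulVec, ← Matrix.mulVec_mulVec, hM, hM, hΦ]
    have hMΨ : M * Ψ = ((p : ZMod (p ^ r)) ^ C) • 1 := by
      refine Matrix.ext_of_mulVec_single fun i => ?_
      rw [← Matrix.mulVec_mulVec, Matrix.smul_mulVec, Matrix.one_mulVec, hM]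
      have h1 : Ψ *ᵥ Pi.single i 1 = v i := by
        funext j
        rw [Matrix.mulVec_single_one]
        rfl
      rw [h1, hv, ← Nat.cast_pow, Nat.cast_smul_eq_nsmul]
    have hdet : M.det * Ψ.det = ((p : ZMod (p ^ r)) ^ C) ^ D := by
      rw [← Matrix.det_mul, hMΨ, Matrix.det_smul, Matrix.det_one, mul_one, Fintype.card_fin]
    have hchar : Polynomial.C M.det * (redMat r A).charpoly
        = Polynomial.C M.det * (redMat r B).charpoly := by
      have hcm : M.map Polynomial.C * (redMat r A).charmatrix
          = (redMat r B).charmatrix * M.map Polynomial.C := by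
        simp only [Matrix.charmatrix, mul_sub, sub_mul, RingHom.mapMatrix_apply,
          ← Matrix.map_mul, hMA]
        congr 1
        exact ((Matrix.scalar_commute (Polynomial.X : (ZMod (p ^ r))[X])
          (fun _ => Commute.all _ _) (M.map Polynomial.C)).eq).symm
      have h2 := congrArg Matrix.det hcm
      rw [Matrix.det_mul, Matrix.det_mul] at h2
      have h3 : (M.map Polynomial.C).det = Polynomial.C M.det := by
        rw [← RingHom.mapMatrix_apply, ← RingHom.map_det]
      rw [h3] at h2
      rw [Matrix.charpoly, Matrix.charpoly, h2, mul_comm]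
    have h4 := congrArg (fun P => Polynomial.coeff P n) hchar
    simp only [Polynomial.coeff_C_mul] at h4
    simp only [redMat, Matrix.charpoly_map, Polynomial.coeff_map] at h4
    rw [map_zero, map_mul, map_sub, map_pow, map_natCast, mul_sub, sub_eq_zero, pow_mul, ← hdet]
    linear_combination Ψ.det * h4
  rcases mul_eq_zero.mp hz with h' | h'
  · exact absurd h' (pow_ne_zero _ (Nat.cast_ne_zero.mpr hp.out.ne_zero))
  · exact sub_eq_zero.mp h'

section Coordinates

variable {J : Type*} [AddCommGroup J]

/-- A basis of the Tate module gives coordinates on every torsion level, in which an endomorphism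
is the reduction of its matrix. -/
theorem exists_coords (h : HasTorsionRank J p D)
    (b : Module.Basis (Fin D) ℤ_[p] (tateModule J p)) (r : ℕ) :
    ∃ co : (Fin D → ZMod (p ^ r)) ≃+ tors J (p ^ r),
      ∀ (f : Module.End ℤ_[p] (tateModule J p)) (g : J →+ J),
        (∀ x n, (f x).1 n = g (x.1 n)) →
          ∀ c, g (co c : J) = (co (redMat r (LinearMap.toMatrix b b f) *ᵥ c) : J) := by
  classical
  have := h.finite_tors r
  let co : (Fin D → ZMod (p ^ r)) →+ tors J (p ^ r) :=
    AddMonoidHom.mk' (fun c => ∑ i, (c i).val • proj J p r (b i)) fun c c' => by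
      rw [← Finset.sum_add_distrib]
      refine Finset.sum_congr rfl fun i _ => Subtype.ext ?_
      rw [AddSubgroup.coe_add, AddSubgroup.coe_nsmul, AddSubgroup.coe_nsmul,
        AddSubgroup.coe_nsmul, coe_proj, Pi.add_apply, ← add_nsmul]
      refine nsmul_congr (tateModule_pow_smul _ r) ?_
      push_cast
      rw [ZMod.natCast_zmod_val]
      simp
  have hco : ∀ a : Fin D → ℤ_[p],
      co (fun i => PadicInt.toZModPow r (a i)) = proj J p r (b.equivFun.symm a) := fun a => by
    simp only [co, AddMonoidHom.mk'_apply, Module.Basis.equivFun_symm_apply, map_sum,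
      proj_padic_smul]
  have hsurj : Function.Surjective co := fun x => by
    obtain ⟨w, hw⟩ := h.proj_surjective r x
    exact ⟨_, (hco (b.equivFun w)).trans (by rw [LinearEquiv.symm_apply_apply, hw])⟩
  have hbij : Function.Bijective co :=
    Function.Surjective.bijective_of_nat_card_le hsurj (by
      rw [h.card, Nat.card_fun, Nat.card_fin, Nat.card_zmod, ← pow_mul, mul_comm])
  refine ⟨AddEquiv.ofBijective co hbij, fun f g hfg c => ?_⟩
  obtain ⟨a, rfl⟩ : ∃ a : Fin D → ℤ_[p], (fun i => PadicInt.toZModPow r (a i)) = c :=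
    ⟨fun i => ((c i).val : ℤ_[p]), funext fun i => by rw [map_natCast, ZMod.natCast_zmod_val]⟩
  show g (co _ : J) = (co _ : J)
  have h1 : redMat r (LinearMap.toMatrix b b f) *ᵥ (fun i => PadicInt.toZModPow r (a i))
      = fun i => PadicInt.toZModPow r ((LinearMap.toMatrix b b f *ᵥ a) i) :=
    funext fun i => (RingHom.map_mulVec (PadicInt.toZModPow r) _ a i).symm
  rw [h1, hco, hco, coe_proj, coe_proj, ← hfg]
  refine congrArg (fun w : tateModule J p => w.1 r) (b.equivFun.injective ?_)
  rw [LinearEquiv.apply_symm_apply]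
  funext i
  have h2 := congrFun (LinearMap.toMatrix_mulVec_repr b b f (b.equivFun.symm a)) i
  rw [show ⇑(b.repr (b.equivFun.symm a)) = a from b.equivFun.apply_symm_apply a] at h2
  exact h2.symm

end Coordinates

end Fermat.Agent.EisensteinTate
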