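import Fermat.Agent.EisensteinDescent.Setup
import Mathlib.LinearAlgebra.Eigenspace.Semisimple
import Mathlib.LinearAlgebra.Eigenspace.Zero
import Mathlib.LinearAlgebra.Charpoly.BaseChange
import Mathlib.LinearAlgebra.DirectSum.Finsupp
import Mathlib.LinearAlgebra.Dimension.RankNullity
import Mathlib.LinearAlgebra.TensorProduct.Basis
import Mathlib.FieldTheory.Separable
import Mathlib.LinearAlgebra.Basis.VectorSpace
import Mathlib.LinearAlgebra.FreeModule.PID
import Mathlib.FieldTheory.IsAlgClosed.Basic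
import Mathlib.NumberTheory.Padics.PadicIntegers

/-!
# Eigen-coordinates of a lattice

Eigen-coordinates of a lattice under a commutative ring of operators which, up to nonzero integers,
is generated by one operator whose characteristic polynomial is the square of a separable one.
-/

noncomputable section

namespace Fermat.Agent.EisensteinTate

open Module Polynomial
open scoped TensorProduct

section Split

variable {R : Type*} [CommRing R] {Λ : Type*} [AddCommGroup Λ] [Module R Λ]
  [Module.Free R Λ] [Module.Finite R Λ]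
  {E : Type*} [Field E] [CharZero E] [IsAlgClosed E] [Algebra R E]

/-- An operator killed by a separable `m` whose characteristic polynomial is `m²` is diagonal
over an algebraically closed field, each root of `m` occurring twice. -/
theorem exists_splitting (f : Module.End R Λ) {m : ℤ[X]} (hm : m.Monic)
    (hsep : (m.map (Int.castRingHom ℚ)).Separable)
    (hf : m.eval₂ (Int.castRingHom (Module.End R Λ)) f = 0)
    (hchar : f.charpoly = (m.map (Int.castRingHom R)) ^ 2) :
    ∃ (α : Fin m.natDegree → E) (Φ : (E ⊗[R] Λ) ≃ₗ[E] (Fin m.natDegree → Fin 2 → E)),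
      Function.Injective α ∧ (∀ a, m.eval₂ (Int.castRingHom E) (α a) = 0) ∧
        ∀ v a, Φ (f.baseChange E v) a = α a • Φ v a := by
  classical
  rcases subsingleton_or_nontrivial R with hR | hR
  · exact absurd (congrArg (algebraMap R E) (Subsingleton.elim (0 : R) 1)) (by simp)
  set mE : E[X] := m.map (Int.castRingHom E) with hmE
  have hsepE : mE.Separable := by
    have h := hsep.map (f := algebraMap ℚ E)
    rwa [Polynomial.map_map, RingHom.ext_int ((algebraMap ℚ E).comp _) (Int.castRingHom E)] at h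
  have hdeg : mE.natDegree = m.natDegree := hm.natDegree_map _
  set fE : Module.End E (E ⊗[R] Λ) := f.baseChange E
  have haeval : aeval fE mE = 0 := by
    have h := congrArg (Module.End.baseChangeHom R E Λ).toRingHom hf
    rw [Polynomial.hom_eval₂, map_zero] at h
    rw [hmE, aeval_def, Polynomial.eval₂_map,
      RingHom.ext_int ((algebraMap E _).comp _)
        ((Module.End.baseChangeHom R E Λ).toRingHom.comp (Int.castRingHom _))]
    exact h
  have hss : fE.IsSemisimple :=
    Module.End.isSemisimple_of_squarefree_aeval_eq_zero hsepE.squarefree haeval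
  have hnd : mE.roots.Nodup := nodup_roots hsepE
  have hcard : mE.roots.toFinset.card = m.natDegree := by
    rw [Multiset.toFinset_card_of_nodup hnd, IsAlgClosed.card_roots_eq_natDegree, hdeg]
  set α : Fin m.natDegree → E := fun a => ((Finset.equivFinOfCardEq hcard).symm a : E)
  have hα : Function.Injective α :=
    Subtype.val_injective.comp (Finset.equivFinOfCardEq hcard).symm.injective
  have hmem : ∀ a, α a ∈ mE.roots := fun a =>
    Multiset.mem_toFinset.mp ((Finset.equivFinOfCardEq hcard).symm a).2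
  set W : Fin m.natDegree → Submodule E (E ⊗[R] Λ) := fun a => fE.eigenspace (α a)
  have htop : ⨆ a, W a = ⊤ := by
    rw [eq_top_iff, ← hss.iSup_eigenspace_eq_top, iSup_le_iff]
    intro μ
    by_cases h : fE.eigenspace μ = ⊥
    · rw [h]; exact bot_le
    · obtain ⟨v, hv, hv0⟩ := Submodule.exists_mem_ne_zero_of_ne_bot h
      have h1 := Module.End.aeval_apply_of_hasEigenvector (p := mE)
        ⟨hv, hv0⟩
      rw [haeval, LinearMap.zero_apply] at h1
      have hμ : μ ∈ mE.roots.toFinset := by
        rw [Multiset.mem_toFinset, mem_roots (hm.map _).ne_zero]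
        exact (smul_eq_zero.mp h1.symm).resolve_right hv0
      refine le_of_eq_of_le ?_ (le_iSup W (Finset.equivFinOfCardEq hcard ⟨μ, hμ⟩))
      simp [W, α]
  have hint : DirectSum.IsInternal W :=
    DirectSum.isInternal_submodule_of_iSupIndep_of_iSup_eq_top
      ((Module.End.eigenspaces_iSupIndep fE).comp hα) htop
  have : ∀ a, Module.Free E (W a) := fun a => Module.Free.of_divisionRing E (W a)
  have hle : ∀ a, finrank E (W a) ≤ 2 := fun a => by
    refine (LinearMap.finrank_eigenspace_le fE (α a)).trans (le_of_eq ?_)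
    have hq : fE.charpoly = mE ^ 2 := by
      rw [LinearMap.charpoly_baseChange, hchar, Polynomial.map_pow, Polynomial.map_map, hmE,
        RingHom.ext_int ((algebraMap R E).comp _) (Int.castRingHom E)]
    rw [hq, ← count_roots, roots_pow, Multiset.count_nsmul,
      Multiset.count_eq_one_of_mem hnd (hmem a)]
  have htot : finrank E (E ⊗[R] Λ) = ∑ a, finrank E (W a) := by
    rw [Module.finrank_eq_card_basis (hint.collectedBasis fun a => Module.finBasis E (W a))]
    simp
  have hfr : finrank E (E ⊗[R] Λ) = 2 * m.natDegree := by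
    rw [Module.finrank_baseChange, ← LinearMap.charpoly_natDegree f, hchar,
      (hm.map _).natDegree_pow, hm.natDegree_map]
  have heq : ∀ a, finrank E (W a) = 2 := by
    have h := (Finset.sum_eq_sum_iff_of_le fun a (_ : a ∈ Finset.univ) => hle a).mp
      (by rw [← htot, hfr, Finset.sum_const, Finset.card_univ, Fintype.card_fin, smul_eq_mul,
        mul_comm])
    exact fun a => h a (Finset.mem_univ a)
  let B := fun a => Module.finBasisOfFinrankEq E (W a) (heq a)
  let b := (hint.collectedBasis B).reindex (Equiv.sigmaEquivProd _ _)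
  let Φ : (E ⊗[R] Λ) ≃ₗ[E] (Fin m.natDegree → Fin 2 → E) :=
    b.equivFun.trans (LinearEquiv.curry E E _ _)
  have heig : ∀ k, fE (b k) = α k.1 • b k := by
    intro k
    have h := hint.collectedBasis_mem B ((Equiv.sigmaEquivProd _ _).symm k)
    rw [← Module.Basis.reindex_apply] at h
    exact Module.End.mem_eigenspace_iff.mp h
  refine ⟨α, Φ, hα, fun a => ?_, fun v a => funext fun i => ?_⟩
  · have h := (mem_roots (hm.map (Int.castRingHom E)).ne_zero).mp (hmem a)
    rwa [IsRoot.def, eval_map] at h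
  · have key : (b.coord (a, i)).comp fE = α a • b.coord (a, i) := by
      refine b.ext fun k => ?_
      rw [LinearMap.comp_apply, heig, map_smul, LinearMap.smul_apply]
      simp only [Module.Basis.coord_apply, Module.Basis.repr_self, Finsupp.single_apply,
        smul_eq_mul]
      split_ifs with h
      · rw [h]
      · simp
    exact LinearMap.congr_fun key v

variable {d : ℕ} {α : Fin d → E} {f : Module.End R Λ}
  {Φ : (E ⊗[R] Λ) ≃ₗ[E] (Fin d → Fin 2 → E)}

/-- The coordinates of a lattice vector. -/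
def coordMap (Φ : (E ⊗[R] Λ) ≃ₗ[E] (Fin d → Fin 2 → E)) : Λ →ₗ[R] Fin d → Fin 2 → E :=
  (Φ.toLinearMap.restrictScalars R).comp (TensorProduct.mk R E Λ 1)

omit [CharZero E] [IsAlgClosed E] [Module.Free R Λ] [Module.Finite R Λ] in
lemma coordMap_apply (x : Λ) : coordMap Φ x = Φ (1 ⊗ₜ[R] x) := rfl

omit [CharZero E] [IsAlgClosed E] [Module.Free R Λ] [Module.Finite R Λ] in
theorem span_coordMap : Submodule.span E (Set.range (coordMap Φ)) = ⊤ := by
  rw [eq_top_iff]
  rintro v -
  obtain ⟨w, rfl⟩ := Φ.surjective v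
  induction w using TensorProduct.induction_on with
  | zero => simp
  | tmul c x =>
    rw [show c ⊗ₜ[R] x = c • ((1 : E) ⊗ₜ[R] x) by rw [TensorProduct.smul_tmul', smul_eq_mul,
      mul_one], map_smul]
    exact Submodule.smul_mem _ _ (Submodule.subset_span ⟨x, rfl⟩)
  | add u v hu hv => rw [map_add]; exact add_mem hu hv

omit [CharZero E] [IsAlgClosed E] [Module.Finite R Λ] in
/-- Lattice vectors are determined by their coordinates. -/
theorem coordMap_injective (hinj : Function.Injective (algebraMap R E)) :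
    Function.Injective (coordMap Φ) := by
  rw [injective_iff_map_eq_zero]
  intro x hx
  rw [coordMap_apply, LinearEquiv.map_eq_zero_iff] at hx
  let b := Module.Free.chooseBasis R Λ
  refine b.repr.injective (Finsupp.ext fun i => ?_)
  have h := congrArg (fun w => (b.baseChange E).repr w i) hx
  simp only [Module.Basis.baseChange_repr_tmul, map_zero, Finsupp.zero_apply] at h
  rw [map_zero, Finsupp.zero_apply]
  refine hinj ?_
  rwa [map_zero, Algebra.algebraMap_eq_smul_one]

omit [CharZero E] [IsAlgClosed E] [Module.Free R Λ] [Module.Finite R Λ] in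
/-- An operator commuting with the split one acts component by component. -/
theorem exists_local (hα : Function.Injective α)
    (hΦ : ∀ v a, Φ (f.baseChange E v) a = α a • Φ v a)
    (G : Module.End R Λ) (hG : G * f = f * G) :
    ∃ g : Fin d → Module.End E (Fin 2 → E),
      ∀ x a, coordMap Φ (G x) a = g a (coordMap Φ x a) := by
  classical
  let G' : Module.End E (Fin d → Fin 2 → E) :=
    Φ.toLinearMap.comp ((G.baseChange E).comp Φ.symm.toLinearMap)
  have hG' : ∀ v, G' (Φ v) = Φ (G.baseChange E v) := fun v => by simp [G']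
  have hcomm : ∀ u a, α a • G' u a = G' (fun b => α b • u b) a := by
    intro u a
    obtain ⟨v, rfl⟩ := Φ.surjective u
    have h1 : (fun b => α b • Φ v b) = Φ (f.baseChange E v) := funext fun b => (hΦ v b).symm
    rw [h1, hG', hG', ← hΦ]
    have h2 : (f.baseChange E) * (G.baseChange E) = (G.baseChange E) * (f.baseChange E) := by
      rw [← LinearMap.baseChange_mul, ← LinearMap.baseChange_mul, hG]
    exact congrArg (fun w => Φ w a) (LinearMap.congr_fun h2 v)
  have hsingle : ∀ b (w : Fin 2 → E) a, a ≠ b → G' (Pi.single b w) a = 0 := by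
    intro b w a hab
    have h := hcomm (Pi.single b w) a
    have h1 : (fun c => α c • (Pi.single b w : Fin d → Fin 2 → E) c) = α b • Pi.single b w := by
      funext c
      by_cases hc : c = b
      · subst hc; simp
      · simp [hc]
    rw [h1, map_smul, Pi.smul_apply, ← sub_eq_zero, ← sub_smul, smul_eq_zero, sub_eq_zero] at h
    exact h.resolve_left fun he => hab (hα he)
  refine ⟨fun a => (LinearMap.proj a).comp (G'.comp (LinearMap.single E (fun _ => Fin 2 → E) a)),
    fun x a => ?_⟩
  show Φ (1 ⊗ₜ[R] G x) a = G' (Pi.single a (Φ (1 ⊗ₜ[R] x) a)) a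
  rw [← LinearMap.baseChange_tmul G 1 x, ← hG']
  conv_lhs => rw [← Finset.univ_sum_single (Φ (1 ⊗ₜ[R] x))]
  rw [map_sum, Finset.sum_apply,
    Finset.sum_eq_single a (fun b _ hb => hsingle b _ a (Ne.symm hb))
      (fun h => absurd (Finset.mem_univ a) h)]

omit [CharZero E] [IsAlgClosed E] [Module.Free R Λ] [Module.Finite R Λ] in
/-- Two maps agreeing on the coordinates of all lattice vectors agree. -/
theorem end_ext_of_coordMap {a : Fin d} {g g' : Module.End E (Fin 2 → E)}
    (h : ∀ x, g (coordMap Φ x a) = g' (coordMap Φ x a)) : g = g' := by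
  have h1 : g.comp (LinearMap.proj a) = g'.comp (LinearMap.proj a) :=
    LinearMap.ext_on_range (span_coordMap (Φ := Φ)) h
  refine LinearMap.ext fun w => ?_
  have := LinearMap.congr_fun h1 (fun _ => w)
  exact this

omit [CharZero E] [IsAlgClosed E] [Module.Free R Λ] [Module.Finite R Λ] in
theorem scalar_ext_of_coordMap {a : Fin d} {c c' : E}
    (h : ∀ x, c • coordMap Φ x a = c' • coordMap Φ x a) : c = c' := by
  have h1 := end_ext_of_coordMap (Φ := Φ) (g := c • LinearMap.id) (g' := c' • LinearMap.id) h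
  simpa using congrFun (LinearMap.congr_fun h1 (fun _ => 1)) 0

omit [CharZero E] [IsAlgClosed E] [Module.Free R Λ] [Module.Finite R Λ] in
/-- A polynomial in the operator acts by its value at each root. -/
theorem coordMap_eval₂ (hΦ : ∀ v a, Φ (f.baseChange E v) a = α a • Φ v a) (F : ℤ[X]) :
    ∀ x a, coordMap Φ (F.eval₂ (Int.castRingHom _) f x) a
      = F.eval₂ (Int.castRingHom E) (α a) • coordMap Φ x a := by
  induction F using Polynomial.induction_on' with
  | add u v hu hv =>
    intro x a
    rw [eval₂_add, eval₂_add, LinearMap.add_apply, map_add, Pi.add_apply, hu, hv, add_smul]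
  | monomial n c =>
    intro x a
    rw [eval₂_monomial, eval₂_monomial, eq_intCast, eq_intCast, Module.End.mul_apply,
      Module.End.intCast_apply, map_zsmul, Pi.smul_apply, mul_smul, Int.cast_smul_eq_zsmul]
    congr 1
    induction n generalizing x with
    | zero => simp
    | succ n ih =>
      rw [pow_succ, Module.End.mul_apply, ih, pow_succ, mul_smul, coordMap_apply,
        coordMap_apply, ← LinearMap.baseChange_tmul f 1 x, hΦ]

end Split

section Rank

variable {p : ℕ} [Fact p.Prime] {M : Type*} [AddCommGroup M] [Module ℤ_[p] M]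
  [Module.Free ℤ_[p] M] [Module.Finite ℤ_[p] M]
  {E : Type*} [Field E] [Algebra ℤ_[p] E] {W : Type*} [AddCommGroup W] [Module E W]
  [Module ℤ_[p] W] [IsScalarTower ℤ_[p] E W]

/-- A lattice spanning a vector space has at least its dimension as rank. -/
theorem finrank_le_of_span_eq_top (c : M →ₗ[ℤ_[p]] W)
    (h : Submodule.span E (Set.range c) = ⊤) : finrank E W ≤ finrank ℤ_[p] M := by
  classical
  let b := Module.finBasis ℤ_[p] M
  have hsp : Submodule.span E (Set.range (c ∘ b)) = ⊤ := by
    rw [eq_top_iff, ← h, Submodule.span_le]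
    rintro _ ⟨x, rfl⟩
    rw [← b.sum_repr x, map_sum]
    refine sum_mem fun i _ => ?_
    rw [map_smul, ← algebraMap_smul E]
    exact Submodule.smul_mem _ _ (Submodule.subset_span ⟨i, rfl⟩)
  have h1 := finrank_range_le_card (R := E) (b := c ∘ b)
  rw [Set.finrank, hsp, finrank_top, Fintype.card_fin] at h1
  exact h1

end Rank

section Data

open EisensteinDescent (EigenData)

variable {Γ : Type*} [Group Γ] {p : ℕ} [Fact p.Prime] {T : Type*} [CommRing T]
  {Λ : Type*} [AddCommGroup Λ] [Module ℤ_[p] Λ] [Module.Free ℤ_[p] Λ] [Module.Finite ℤ_[p] Λ]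
  [DistribMulAction Γ Λ] [SMulCommClass Γ ℤ_[p] Λ]
  {Λ₀ : Type*} [AddCommGroup Λ₀] [Module ℤ_[p] Λ₀] [Module.Free ℤ_[p] Λ₀]
  [Module.Finite ℤ_[p] Λ₀] [DistribMulAction Γ Λ₀]

omit [DistribMulAction Γ Λ] [SMulCommClass Γ ℤ_[p] Λ] [Module.Free ℤ_[p] Λ]
  [Module.Finite ℤ_[p] Λ] in
/-- In split coordinates each operator generated up to nonzero integers by `act τ` is a scalar in
every component; these scalars are characters, which take the value `α` at `τ`. -/
theorem exists_character {E : Type*} [Field E] [CharZero E] [Algebra ℤ_[p] E] {d : ℕ}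
    {α : Fin d → E} {Φ : (E ⊗[ℤ_[p]] Λ) ≃ₗ[E] (Fin d → Fin 2 → E)}
    (act : T →+* Module.End ℤ_[p] Λ) (τ : T)
    (hΦ : ∀ v a, Φ ((act τ).baseChange E v) a = α a • Φ v a)
    (hgen : ∀ t, ∃ (c : ℤ) (F : ℤ[X]), c ≠ 0 ∧
      c • act t = F.eval₂ (Int.castRingHom (Module.End ℤ_[p] Λ)) (act τ)) :
    ∃ θ : Fin d → T →+* E, (∀ t x a, coordMap Φ (act t x) a = θ a t • coordMap Φ x a) ∧
      ∀ a, θ a τ = α a := by
  set c := coordMap Φ
  have hex : ∀ t a, ∃ s : E, ∀ x, c (act t x) a = s • c x a := by
    intro t a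
    obtain ⟨k, F, hk, hF⟩ := hgen t
    refine ⟨F.eval₂ (Int.castRingHom E) (α a) / k, fun x => ?_⟩
    have h := coordMap_eval₂ hΦ F x a
    rw [← hF, LinearMap.smul_apply, map_zsmul, Pi.smul_apply, ← Int.cast_smul_eq_zsmul E] at h
    rw [div_eq_inv_mul, mul_smul, ← h, smul_smul,
      inv_mul_cancel₀ (Int.cast_ne_zero.mpr hk), one_smul]
  choose s hs using hex
  refine ⟨fun a => ⟨⟨⟨fun t => s t a, ?_⟩, fun t t' => ?_⟩, ?_, fun t t' => ?_⟩,
    fun t x a => hs t a x, fun a => ?_⟩ <;>
    refine scalar_ext_of_coordMap (Φ := Φ) (a := a) fun x => ?_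
  · rw [← hs, map_one, one_smul]; rfl
  · rw [← hs, map_mul, Module.End.mul_apply, hs, hs, mul_smul]
  · show s 0 a • c x a = (0 : E) • c x a
    rw [← hs, map_zero, LinearMap.zero_apply, map_zero, zero_smul]; rfl
  · show s (t + t') a • c x a = (s t a + s t' a) • c x a
    rw [← hs, map_add, LinearMap.add_apply, map_add, Pi.add_apply, hs, hs, add_smul]
  · show s τ a • c x a = α a • c x a
    rw [← hs]
    have h1 := coordMap_eval₂ hΦ X x a
    rwa [eval₂_X, eval₂_X] at h1

omit [DistribMulAction Γ Λ] [SMulCommClass Γ ℤ_[p] Λ] [Module.Free ℤ_[p] Λ₀]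
  [Module.Finite ℤ_[p] Λ₀] [DistribMulAction Γ Λ₀] [Module.Free ℤ_[p] Λ]
  [Module.Finite ℤ_[p] Λ] in
/-- An idempotent in the span of operators which are scalar in every component is `0` or `1` in
every component. -/
theorem exists_idempotent_scalar {E : Type*} [Field E] [Algebra ℤ_[p] E] {d : ℕ}
    {Φ : (E ⊗[ℤ_[p]] Λ) ≃ₗ[E] (Fin d → Fin 2 → E)} {act : T →+* Module.End ℤ_[p] Λ}
    {θ : Fin d → T →+* E} (hθ : ∀ t x a, coordMap Φ (act t x) a = θ a t • coordMap Φ x a)
    (incl : Λ₀ →ₗ[ℤ_[p]] Λ) (π₀ : Λ →ₗ[ℤ_[p]] Λ₀) (hleft : ∀ x, π₀ (incl x) = x)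
    (hspan : incl.comp π₀ ∈ Submodule.span ℤ_[p] (Set.range act)) :
    ∃ ε : Fin d → E, (∀ x a, coordMap Φ (incl (π₀ x)) a = ε a • coordMap Φ x a) ∧
      ∀ a, ε a ≠ 1 → ε a = 0 := by
  set c := coordMap Φ
  have hε : ∀ a, ∃ ε : E, ∀ x, c (incl (π₀ x)) a = ε • c x a := by
    intro a
    have : ∀ h ∈ Submodule.span ℤ_[p] (Set.range act), ∃ ε : E, ∀ x, c (h x) a = ε • c x a := by
      intro h hh
      induction hh using Submodule.span_induction with
      | mem _ hm' => obtain ⟨t, rfl⟩ := hm'; exact ⟨θ a t, fun x => hθ t x a⟩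
      | zero => exact ⟨0, fun x => by simp⟩
      | add u v _ _ hu hv =>
        obtain ⟨e₁, h₁⟩ := hu
        obtain ⟨e₂, h₂⟩ := hv
        exact ⟨e₁ + e₂, fun x => by
          rw [LinearMap.add_apply, map_add, Pi.add_apply, h₁, h₂, add_smul]⟩
      | smul r u _ hu =>
        obtain ⟨e₁, h₁⟩ := hu
        exact ⟨algebraMap ℤ_[p] E r * e₁, fun x => by
          rw [LinearMap.smul_apply, map_smul, Pi.smul_apply, h₁, mul_smul, algebraMap_smul]⟩
    exact this _ hspan
  choose ε hε using hε
  refine ⟨ε, fun x a => hε a x, fun a ha => ?_⟩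
  have h2 : ε a * ε a = ε a := scalar_ext_of_coordMap (Φ := Φ) fun x => by
    rw [mul_smul, ← hε, ← hε, hleft]
  exact (mul_left_eq_self₀.mp h2).resolve_left ha

/-- A lattice is the product of the image and the kernel of a split projection. -/
def splitEquiv (incl : Λ₀ →ₗ[ℤ_[p]] Λ) (π₀ : Λ →ₗ[ℤ_[p]] Λ₀) (hleft : ∀ x, π₀ (incl x) = x) :
    Λ ≃ₗ[ℤ_[p]] Λ₀ × LinearMap.ker π₀ where
  toFun x := (π₀ x, ⟨x - incl (π₀ x), by
    rw [LinearMap.mem_ker, map_sub, hleft, sub_self]⟩)
  map_add' x y := Prod.ext (map_add π₀ x y) (Subtype.ext (by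
    simp only [map_add, Prod.snd_add, Submodule.coe_add]; abel))
  map_smul' a x := Prod.ext (map_smul π₀ a x) (Subtype.ext (by simp [smul_sub]))
  invFun w := incl w.1 + w.2
  left_inv x := add_sub_cancel _ _
  right_inv w := Prod.ext (by
    show π₀ (incl w.1 + w.2) = w.1
    rw [map_add, hleft, LinearMap.mem_ker.mp w.2.2, add_zero]) (Subtype.ext (by
    show incl w.1 + w.2 - incl (π₀ (incl w.1 + w.2)) = w.2
    rw [map_add, hleft, LinearMap.mem_ker.mp w.2.2, add_zero, add_sub_cancel_left]))

omit [DistribMulAction Γ Λ] [SMulCommClass Γ ℤ_[p] Λ] [DistribMulAction Γ Λ₀] in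
/-- A summand cut out by an idempotent has, in the components where the idempotent is one,
spanning coordinates, and its rank is twice the number of these components. -/
theorem span_coord_and_finrank {E : Type*} [Field E] [Algebra ℤ_[p] E] {d : ℕ}
    {Φ : (E ⊗[ℤ_[p]] Λ) ≃ₗ[E] (Fin d → Fin 2 → E)} (hd : finrank ℤ_[p] Λ = 2 * d)
    (incl : Λ₀ →ₗ[ℤ_[p]] Λ) (π₀ : Λ →ₗ[ℤ_[p]] Λ₀) (hleft : ∀ x, π₀ (incl x) = x)
    {ε : Fin d → E} (hε : ∀ x a, coordMap Φ (incl (π₀ x)) a = ε a • coordMap Φ x a)
    (hε01 : ∀ a, ε a ≠ 1 → ε a = 0) :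
    Submodule.span E (Set.range fun (x : Λ₀) (i : {a // ε a = 1}) => coordMap Φ (incl x) i.1) = ⊤ ∧
      finrank ℤ_[p] Λ₀ = 2 * Nat.card {a // ε a = 1} := by
  classical
  set c := coordMap Φ
  let r : (Fin d → Fin 2 → E) →ₗ[E] ({a // ε a = 1} → Fin 2 → E) :=
    LinearMap.funLeft E (Fin 2 → E) Subtype.val
  let r' : (Fin d → Fin 2 → E) →ₗ[E] ({a // ¬ ε a = 1} → Fin 2 → E) :=
    LinearMap.funLeft E (Fin 2 → E) Subtype.val
  let c₀ : Λ₀ →ₗ[ℤ_[p]] {a // ε a = 1} → Fin 2 → E :=
    ((r.restrictScalars ℤ_[p]).comp c).comp incl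
  have hspan₀ : Submodule.span E (Set.range c₀) = ⊤ := by
    have hr : Function.Surjective r :=
      LinearMap.funLeft_surjective_of_injective E (Fin 2 → E) _ Subtype.val_injective
    rw [eq_top_iff, ← LinearMap.range_eq_top.mpr hr, LinearMap.range_eq_map,
      ← span_coordMap (Φ := Φ), Submodule.map_span, Submodule.span_le]
    rintro _ ⟨_, ⟨x, rfl⟩, rfl⟩
    refine Submodule.subset_span ⟨π₀ x, funext fun i => ?_⟩
    show c (incl (π₀ x)) i.1 = c x i.1
    rw [hε, i.2, one_smul]
  let c₁ : LinearMap.ker π₀ →ₗ[ℤ_[p]] ({a // ¬ ε a = 1} → Fin 2 → E) :=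
    ((r'.restrictScalars ℤ_[p]).comp c).comp (LinearMap.ker π₀).subtype
  have hspan₁ : Submodule.span E (Set.range c₁) = ⊤ := by
    have hr : Function.Surjective r' :=
      LinearMap.funLeft_surjective_of_injective E (Fin 2 → E) _ Subtype.val_injective
    rw [eq_top_iff, ← LinearMap.range_eq_top.mpr hr, LinearMap.range_eq_map,
      ← span_coordMap (Φ := Φ), Submodule.map_span, Submodule.span_le]
    rintro _ ⟨_, ⟨x, rfl⟩, rfl⟩
    refine Submodule.subset_span ⟨(splitEquiv incl π₀ hleft x).2, funext fun i => ?_⟩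
    show c (x - incl (π₀ x)) i.1 = c x i.1
    rw [map_sub, Pi.sub_apply, hε, hε01 _ i.2, zero_smul, sub_zero]
  refine ⟨hspan₀, ?_⟩
  have h0 := finrank_le_of_span_eq_top c₀ hspan₀
  have h1 := finrank_le_of_span_eq_top c₁ hspan₁
  have h2 : finrank ℤ_[p] Λ = finrank ℤ_[p] Λ₀ + finrank ℤ_[p] (LinearMap.ker π₀) := by
    rw [(splitEquiv incl π₀ hleft).finrank_eq, Module.finrank_prod]
  rw [Module.finrank_pi_fintype, Finset.sum_const, Finset.card_univ, Module.finrank_fin_fun,
    smul_eq_mul] at h0 h1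
  have h4 := Fintype.card_subtype_compl fun a => ε a = 1
  rw [Fintype.card_fin] at h4
  have h5 := Fintype.card_subtype_le fun a : Fin d => ε a = 1
  rw [Fintype.card_fin] at h5
  rw [Nat.card_eq_fintype_card]
  omega

/-- Eigen-coordinates of a direct summand cut out by an idempotent in the span of the operators.
The characters are distinct and only depend on the operators on the whole lattice. -/
theorem exists_eigenData (E : Type*) [Field E] [CharZero E] [IsAlgClosed E] [Algebra ℤ_[p] E]
    (hinj : Function.Injective (algebraMap ℤ_[p] E))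
    (act : T →+* Module.End ℤ_[p] Λ) (τ : T) {m : ℤ[X]} (hm : m.Monic)
    (hsep : (m.map (Int.castRingHom ℚ)).Separable)
    (hτ : m.eval₂ (Int.castRingHom (Module.End ℤ_[p] Λ)) (act τ) = 0)
    (hchar : (act τ).charpoly = (m.map (Int.castRingHom ℤ_[p])) ^ 2)
    (hgen : ∀ t, ∃ (c : ℤ) (F : ℤ[X]), c ≠ 0 ∧
      c • act t = F.eval₂ (Int.castRingHom (Module.End ℤ_[p] Λ)) (act τ))
    (hΓ : ∀ (g : Γ) (t : T) (x : Λ), g • act t x = act t (g • x))
    (act₀ : T →+* Module.End ℤ_[p] Λ₀) (incl : Λ₀ →ₗ[ℤ_[p]] Λ) (π₀ : Λ →ₗ[ℤ_[p]] Λ₀)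
    (hleft : ∀ x, π₀ (incl x) = x)
    (hspan : incl.comp π₀ ∈ Submodule.span ℤ_[p] (Set.range act))
    (hact₀ : ∀ t x, incl (act₀ t x) = act t (incl x))
    (hΓ₀ : ∀ (g : Γ) x, incl (g • x) = g • incl x) :
    ∃ D : EigenData Γ act₀ E, (∀ i t t', act t = act t' → D.θ i t = D.θ i t') ∧
      Function.Injective D.θ := by
  classical
  obtain ⟨α, Φ, hα, -, hΦ⟩ := exists_splitting (E := E) (act τ) hm hsep hτ hchar
  obtain ⟨θ, hθ, hθτ⟩ := exists_character act τ hΦ hgen
  obtain ⟨ε, hε, hε01⟩ := exists_idempotent_scalar hθ incl π₀ hleft hspan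
  set c := coordMap Φ
  have hdim : finrank ℤ_[p] Λ = 2 * m.natDegree := by
    rw [← LinearMap.charpoly_natDegree (act τ), hchar, (hm.map _).natDegree_pow,
      hm.natDegree_map]
  obtain ⟨hspan₀, hrank⟩ := span_coord_and_finrank hdim incl π₀ hleft hε hε01
  -- the action of the group
  have hloc : ∀ g : Γ, ∃ ρ : Fin m.natDegree → Module.End E (Fin 2 → E),
      ∀ x a, c (g • x) a = ρ a (c x a) := fun g =>
    exists_local hα hΦ (DistribSMul.toLinearMap ℤ_[p] Λ g)
      (LinearMap.ext fun x => hΓ g τ x)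
  choose ρ hρ using hloc
  refine ⟨{ ι := {a // ε a = 1}
            θ := fun i => θ i.1
            coord := (((LinearMap.funLeft E (Fin 2 → E) Subtype.val).restrictScalars ℤ_[p]).comp
              c).comp incl
            coord_injective := ?_
            span_coord := hspan₀
            finrank_eq := by rw [hrank, Nat.card_eq_fintype_card]
            ρ := fun i => ⟨⟨fun g => ρ g i.1, ?_⟩, fun g g' => ?_⟩
            coord_smul := fun g x i => ?_
            coord_act := fun t x i => ?_ }, fun i t t' h => ?_, fun i j h => ?_⟩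
  · rw [injective_iff_map_eq_zero]
    intro x hx
    have h : c (incl x) = 0 := by
      funext a
      by_cases ha : ε a = 1
      · exact congrFun hx ⟨a, ha⟩
      · rw [← hleft x, hε, hε01 _ ha, zero_smul]; rfl
    rw [← hleft x, (injective_iff_map_eq_zero c).mp (coordMap_injective hinj) _ h, map_zero]
  · refine end_ext_of_coordMap (Φ := Φ) (a := i.1) fun x => ?_
    rw [← hρ, one_smul, Module.End.one_apply]
  · refine end_ext_of_coordMap (Φ := Φ) (a := i.1) fun x => ?_
    rw [← hρ, mul_smul, hρ, hρ, Module.End.mul_apply]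
  · show c (incl (g • x)) i.1 = ρ g i.1 (c (incl x) i.1)
    rw [hΓ₀, hρ]
  · show c (incl (act₀ t x)) i.1 = θ i.1 t • c (incl x) i.1
    rw [hact₀, hθ]
  · refine scalar_ext_of_coordMap (Φ := Φ) (a := i.1) fun x => ?_
    rw [← hθ, ← hθ, h]
  · have h1 : θ i.1 τ = θ j.1 τ := RingHom.congr_fun h τ
    rw [hθτ, hθτ] at h1
    exact Subtype.ext (hα h1)

end Data

end Fermat.Agent.EisensteinTate
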