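import Fermat.Agent.HeckeLattice.Lattice
import Fermat.Agent.S21
import Fermat.Agent.SmallLevel.Vanishing
import Fermat.Agent.Newforms.MultOne
import Fermat.Agent.Petersson.Semisimple
import Mathlib.LinearAlgebra.Lagrange
import Mathlib.LinearAlgebra.Complex.Module
import Mathlib.LinearAlgebra.Complex.FiniteDimensional
import Mathlib.LinearAlgebra.Charpoly.ToMatrix
import Mathlib.LinearAlgebra.Eigenspace.Basic
import Mathlib.RingTheory.AlgebraTower
import Mathlib.RingTheory.Polynomial.GaussLemma
import Mathlib.RingTheory.Localization.Integral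
import Mathlib.FieldTheory.Separable

/-!
# The Hecke algebra on the period lattice at prime level

At prime level the Hecke algebra of weight two cusp forms is, up to nonzero integers, generated by
one operator; on the period lattice (of rank twice the dimension) its characteristic polynomial is
the square of a separable polynomial with integer coefficients.
-/

noncomputable section

namespace Fermat.Agent.EisensteinTate

open CongruenceSubgroup ModularCurve ModularCurve.Period Polynomial
open ModularFormClass (qCoeff)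
open HeckeLattice (periodLattice periodDual parHom latticeAct latticeAct_apply latticeAct_injective)
open scoped MatrixGroups ComplexConjugate Matrix IsMulCommutative

variable {N : ℕ} [NeZero N]

omit [NeZero N] in
/-- At prime level the only excluded prime is the level. -/
theorem level_mem_singleton (hN : N.Prime) : ∀ q : ℕ, q.Prime → q ∣ N → q ∈ ({N} : Set ℕ) :=
  fun _ hq hqN => (Nat.prime_dvd_prime_iff_eq hq hN).mp hqN

/-- Finitely many nonzero additive maps to `ℂ` are simultaneously nonzero at some point. -/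
theorem exists_forall_map_ne_zero {A : Type*} [AddCommGroup A] {ι : Type*} (s : Finset ι)
    (f : ι → A →+ ℂ) (hf : ∀ i ∈ s, f i ≠ 0) : ∃ a, ∀ i ∈ s, f i a ≠ 0 := by
  classical
  induction s using Finset.induction with
  | empty => exact ⟨0, fun i hi => absurd hi (Finset.notMem_empty i)⟩
  | insert i s _ ih =>
    obtain ⟨a, ha⟩ := ih fun j hj => hf j (Finset.mem_insert_of_mem hj)
    obtain ⟨u, hu⟩ : ∃ u, f i u ≠ 0 := by
      by_contra h
      exact hf i (Finset.mem_insert_self i s)
        (AddMonoidHom.ext fun u => not_not.mp fun hu => h ⟨u, hu⟩)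
    by_cases hia : f i a = 0
    · have hfin : (⋃ j ∈ (s : Set ι), {k : ℕ | (k : ℂ) * f j a + f j u = 0}).Finite := by
        refine s.finite_toSet.biUnion fun j hj => Set.Subsingleton.finite fun k hk l hl => ?_
        simp only [Set.mem_ofPred_eq] at hk hl
        have h1 : ((k : ℂ) - l) * f j a = 0 := by linear_combination hk - hl
        exact_mod_cast sub_eq_zero.mp ((mul_eq_zero.mp h1).resolve_right (ha j hj))
      obtain ⟨k, hk⟩ := hfin.exists_notMem
      refine ⟨k • a + u, fun j hj => ?_⟩
      rw [map_add, map_nsmul, nsmul_eq_mul]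
      rcases Finset.mem_insert.mp hj with rfl | hj
      · rwa [hia, mul_zero, zero_add]
      · intro h0
        exact hk (Set.mem_biUnion hj h0)
    · refine ⟨a, fun j hj => ?_⟩
      rcases Finset.mem_insert.mp hj with rfl | hj
      · exact hia
      · exact ha j hj

theorem aeval_map_int {R A : Type*} [CommRing R] [Ring A] [Algebra R A] (x : A) (m : ℤ[X]) :
    aeval x (m.map (Int.castRingHom R)) = m.eval₂ (Int.castRingHom A) x := by
  rw [aeval_def, eval₂_map]
  exact congrArg (fun f => eval₂ f x m) (RingHom.ext_int _ _)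

/-- A ring homomorphism commutes with evaluation of an integer polynomial. -/
theorem ringHom_aeval_int {A B : Type*} [CommRing A] [Ring B] (φ : A →+* B) (x : A) (m : ℤ[X]) :
    φ (aeval x m) = m.eval₂ (Int.castRingHom B) (φ x) := by
  rw [aeval_def, hom_eval₂]
  exact congrArg (fun f => eval₂ f (φ x) m) (RingHom.ext_int _ _)

/-- A cusp form whose periods are purely imaginary vanishes. -/
theorem eq_zero_of_re_periodMap_eq_zero (f : CuspForm (Gamma0 N) 2)
    (h : ∀ γ, (periodMap N f γ).re = 0) : f = 0 := by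
  obtain ⟨F, hF⟩ := EichlerShimura.exists_primitive N f
  have hconst := EichlerShimura.eq_const_of_re_periods_eq_zero N F
    (EichlerShimura.isPrim_mdifferentiable (g := ⇑f) hF.1)
    (fun γ hγ => ⟨periodMap N f (Additive.ofMul ⟨γ, hγ⟩), h _, fun τ => by
      rw [EichlerShimura.periodMap_apply N f hF ⟨γ, hγ⟩ τ]
      ring⟩) hF.2.2.2
  ext τ
  have h0 : HasDerivAt (F ∘ UpperHalfPlane.ofComplex) 0 (τ : ℂ) :=
    (hasDerivAt_const _ (F UpperHalfPlane.I)).congr_of_eventuallyEq
      (Filter.Eventually.of_forall fun z => hconst _)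
  exact (hF.1 τ).unique h0

omit [NeZero N] in
/-- There is no weight two cusp form of level one. -/
theorem cuspForm_level_one_eq_zero (f : CuspForm (Gamma0 1) 2) : f = 0 :=
  SmallLevel.cuspForm_eq_zero_of_index_lt (N := 1) (k := 2) (SmallLevel.Gamma_le_Gamma0 1)
    (by simp [show Gamma0 1 = ⊤ from
      eq_top_iff.mpr fun g _ ↦ Gamma0_mem.mpr (Subsingleton.elim _ _)]) f

omit [NeZero N] in
/-- At prime level every eigenform is new. -/
theorem isNewform_of_prime (hN : N.Prime) {f : CuspForm (Gamma0 N) 2}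
    (hf : f.IsNormalizedEigenform) : f.IsNewform := by
  refine ⟨hf, fun M hM hMN h => ?_⟩
  obtain rfl := (hN.eq_one_or_self_of_dvd M hM).resolve_right hMN
  obtain ⟨g, hg, -⟩ := h
  exact hg.ne_zero (cuspForm_level_one_eq_zero g)

/-- At prime level the good Hecke eigenspaces are lines: there is an eigenbasis with distinct
characters. -/
theorem exists_eigenbasis (hN : N.Prime) :
    ∃ (ι : Type) (_ : Fintype ι) (b : Module.Basis ι ℂ (CuspForm (Gamma0 N) 2))
      (χ : ι → CuspForm.heckeAlgebra N 2 ({N} : Set ℕ) →+ ℂ), Function.Injective χ ∧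
      ∀ i (t : CuspForm.heckeAlgebra N 2 ({N} : Set ℕ)),
        (t : Module.End ℂ (CuspForm (Gamma0 N) 2)) (b i) = χ i t • b i := by
  classical
  have : FiniteDimensional ℂ (CuspForm (Gamma0 N) 2) := HeckeLift.finiteDimensional_cuspForm
  set H := CuspForm.heckeAlgebra N 2 ({N} : Set ℕ)
  set S₀ : Set (CuspForm (Gamma0 N) 2) :=
    {v | ∃ χ : H → ℂ, ∀ t : H, (t : Module.End ℂ (CuspForm (Gamma0 N) 2)) v = χ t • v}
  have hspan : ⊤ ≤ Submodule.span ℂ S₀ := by
    rw [← Petersson.iSup_iInf_eigenspace_heckeAlgebra (k := 2) (level_mem_singleton hN), iSup_le_iff]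
    intro χ v hv
    refine Submodule.subset_span ⟨χ, fun t => ?_⟩
    exact Module.End.mem_eigenspace_iff.mp (Submodule.mem_iInf _ |>.mp hv t)
  obtain ⟨s, hs, hsspan, hsli⟩ := exists_linearIndependent ℂ S₀
  let b := Module.Basis.mk hsli (by rw [Subtype.range_coe, hsspan]; exact hspan)
  have hfin : Finite s := Module.Finite.finite_basis b
  have hb : ∀ i, b i = (i : CuspForm (Gamma0 N) 2) := fun i => Module.Basis.mk_apply _ _ i
  choose χ hχ using fun i : s => hs i.2
  have hne : ∀ i : s, (i : CuspForm (Gamma0 N) 2) ≠ 0 := fun i => hb i ▸ b.ne_zero i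
  have hadd : ∀ i (t u : H), χ i (t + u) = χ i t + χ i u := by
    intro i t u
    refine smul_left_injective ℂ (hne i) (?_ : χ i (t + u) • (i : CuspForm (Gamma0 N) 2) = _)
    show _ = (χ i t + χ i u) • (i : CuspForm (Gamma0 N) 2)
    rw [add_smul, ← hχ, ← hχ, ← hχ]
    rfl
  refine ⟨s, Fintype.ofFinite s, b, fun i => AddMonoidHom.mk' (χ i) (hadd i), ?_,
    fun i t => by rw [hb]; exact hχ i t⟩
  intro i j hij
  by_contra hne'
  -- both vectors are proportional to one newform
  have hTℓ : ∀ (k : s) (ℓ : ℕ) (hℓ : ℓ.Prime) (hℓN : ¬ ℓ ∣ N),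
      CuspForm.heckeTLin 2 hℓ hℓN (k : CuspForm (Gamma0 N) 2)
        = χ k (CuspForm.heckeAlgebra.T hℓ hℓN (fun h => hℓN (h ▸ dvd_refl N)))
          • (k : CuspForm (Gamma0 N) 2) := fun k ℓ hℓ hℓN => by
    exact hχ k (CuspForm.heckeAlgebra.T hℓ hℓN (fun h => hℓN (h ▸ dvd_refl N)))
  obtain ⟨g, hg, hgθ⟩ := Newforms.exists_eigenform_of_eigenvector (hne i)
    (fun ℓ => ℓ.Prime ∧ ¬ ℓ ∣ N)
    (fun ℓ => if h : ℓ.Prime ∧ ¬ ℓ ∣ N then
      χ i (CuspForm.heckeAlgebra.T h.1 h.2 (fun h' => h.2 (h' ▸ dvd_refl N))) else 0)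
    (fun ℓ hℓ => hℓ)
    (fun ℓ hℓ => by
      rw [dif_pos hℓ]
      exact congrArg (fun v : CuspForm (Gamma0 N) 2 => ⇑v) (hTℓ i ℓ hℓ.1 hℓ.2))
  have hprop : ∀ k : s, χ k = χ i →
      (k : CuspForm (Gamma0 N) 2) = qCoeff ⇑(k : CuspForm (Gamma0 N) 2) 1 • g := fun k hk =>
    Newforms.eq_smul_of_isNewform g (isNewform_of_prime hN hg) _ fun ℓ hℓ hℓN => by
      rw [hgθ ℓ ⟨hℓ, hℓN⟩, dif_pos ⟨hℓ, hℓN⟩, ← hk]
      exact congrArg (fun v : CuspForm (Gamma0 N) 2 => ⇑v) (hTℓ k ℓ hℓ hℓN)
  have hij' : χ j = χ i := funext fun t => (DFunLike.congr_fun hij t).symm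
  set ci := qCoeff ⇑(i : CuspForm (Gamma0 N) 2) 1
  set cj := qCoeff ⇑(j : CuspForm (Gamma0 N) 2) 1
  have hci : ci ≠ 0 := fun h0 => hne i (by rw [hprop i rfl]; show ci • g = 0; rw [h0, zero_smul])
  have hrel : cj • b i - ci • b j = 0 := by
    rw [hb, hb, hprop i rfl, hprop j hij']
    show cj • ci • g - ci • cj • g = 0
    rw [smul_smul, smul_smul, mul_comm, sub_self]
  have h2 := congrArg (fun v => b.repr v j) hrel
  simp only [map_sub, map_smul, Module.Basis.repr_self, Finsupp.sub_apply, Finsupp.smul_apply,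
    Finsupp.single_eq_same, Finsupp.single_eq_of_ne (Ne.symm hne'), smul_eq_mul, mul_zero, mul_one,
    map_zero, Finsupp.zero_apply, zero_sub, neg_eq_zero] at h2
  exact hci h2

local notation "Vd" => Module.Dual ℂ (CuspForm (Gamma0 N) 2)

/-- The dual of the cusp forms as a real vector space. -/
theorem finiteDimensional_dual_real :
    FiniteDimensional ℝ (Module.Dual ℂ (CuspForm (Gamma0 N) 2)) ∧
      Module.finrank ℝ (Module.Dual ℂ (CuspForm (Gamma0 N) 2))
        = 2 * Module.finrank ℂ (CuspForm (Gamma0 N) 2) := by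
  have : FiniteDimensional ℂ (CuspForm (Gamma0 N) 2) := HeckeLift.finiteDimensional_cuspForm
  refine ⟨FiniteDimensional.trans ℝ ℂ _, ?_⟩
  rw [finrank_real_of_complex, Subspace.dual_finrank_eq]

/-- The period lattice spans the dual space over `ℝ`. -/
theorem span_periodLattice :
    Submodule.span ℝ (periodLattice N : Set (Module.Dual ℂ (CuspForm (Gamma0 N) 2))) = ⊤ := by
  classical
  by_contra hne
  have : FiniteDimensional ℂ (CuspForm (Gamma0 N) 2) := HeckeLift.finiteDimensional_cuspForm
  obtain ⟨φ, hφ0, hφ⟩ := Submodule.exists_le_ker_of_lt_top _ (lt_top_iff_ne_top.mpr hne)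
  -- a real functional is the real part of the evaluation at a cusp form
  let ψ : Module.Dual ℂ (Module.Dual ℂ (CuspForm (Gamma0 N) 2)) :=
    { toFun := fun v => (φ v : ℂ) - Complex.I * (φ (Complex.I • v) : ℂ)
      map_add' := fun v w => by simp only [smul_add, map_add]; push_cast; ring
      map_smul' := fun c v => by
        have e1 : c • v = c.re • v + c.im • (Complex.I • v) := by
          rw [← Complex.coe_smul, ← Complex.coe_smul, smul_smul, ← add_smul, Complex.re_add_im]
        have e2 : Complex.I • c • v = c.re • (Complex.I • v) - c.im • v := by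
          rw [e1, smul_add, smul_comm Complex.I c.re, smul_comm Complex.I c.im, smul_smul,
            Complex.I_mul_I, neg_one_smul, smul_neg, sub_eq_add_neg]
        simp only [RingHom.id_apply, smul_eq_mul]
        rw [e2, e1]
        simp only [map_add, map_sub, map_smul, smul_eq_mul]
        push_cast
        conv_rhs => rw [← Complex.re_add_im c]
        linear_combination (-(c.im : ℂ) * (φ (Complex.I • v) : ℂ)) * Complex.I_mul_I * (-1) }
  obtain ⟨f, hf⟩ := (Module.evalEquiv ℂ (CuspForm (Gamma0 N) 2)).surjective ψ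
  have hre : ∀ v : Module.Dual ℂ (CuspForm (Gamma0 N) 2), (v f).re = φ v := fun v => by
    have h1 := LinearMap.congr_fun hf v
    rw [Module.evalEquiv_apply, Module.Dual.eval_apply] at h1
    rw [h1]
    show ((φ v : ℂ) - Complex.I * (φ (Complex.I • v) : ℂ)).re = φ v
    simp
  have hf0 : f = 0 := eq_zero_of_re_periodMap_eq_zero f fun γ => by
    have h2 : periodDual N (parHom N γ) ∈ Submodule.span ℝ
        (periodLattice N : Set (Module.Dual ℂ (CuspForm (Gamma0 N) 2))) :=
      Submodule.subset_span ⟨parHom N γ, rfl⟩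
    have h3 := hre (periodDual N (parHom N γ))
    rw [HeckeLattice.periodDual_parHom] at h3
    rw [h3]
    exact hφ h2
  refine hφ0 (LinearMap.ext fun v => ?_)
  rw [← hre v, hf0, map_zero]
  rfl

/-- The quotient map onto the period lattice. -/
def toLattice (N : ℕ) [NeZero N] : Additive (Gamma0 N) →+ periodLattice N :=
  ((periodDual N).toIntLinearMap.rangeRestrict.toAddMonoidHom).comp (parHom N)

/-- The period lattice is a quotient of `Γ₀(N)`. -/
theorem toLattice_surjective : Function.Surjective (toLattice N) := by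
  rintro ⟨_, a, rfl⟩
  obtain ⟨γ, rfl⟩ := HeckeLattice.parHom_surjective N a
  exact ⟨γ, rfl⟩

/-- Additive maps of the period lattice give parabolic homomorphisms of `Γ₀(N)`. -/
theorem comp_toLattice_isParabolicHom {B : Type*} [AddCommGroup B] (ψ : periodLattice N →+ B) :
    IsParabolicHom (Gamma0 N) (ψ.comp (toLattice N)) := by
  intro δ hδ
  refine (congrArg (fun a => ψ ((periodDual N).toIntLinearMap.rangeRestrict a))
    (HeckeLattice.parHom_isParabolicHom N δ hδ)).trans ?_
  rw [map_zero]
  exact map_zero ψ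

/-- An integral basis of the period lattice spans the dual space over `ℝ`. -/
theorem span_range_basis_periodLattice {ι : Type*} [Fintype ι]
    (b : Module.Basis ι ℤ (periodLattice N)) :
    Submodule.span ℝ (Set.range fun i => (b i : Module.Dual ℂ (CuspForm (Gamma0 N) 2))) = ⊤ := by
  rw [eq_top_iff, ← span_periodLattice, Submodule.span_le]
  intro v hv
  have h := congrArg Subtype.val (b.sum_repr ⟨v, hv⟩)
  rw [Submodule.coe_sum] at h
  rw [SetLike.mem_coe, ← show _ = v from h]
  refine sum_mem fun i _ => ?_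
  rw [Submodule.coe_smul, ← Int.cast_smul_eq_zsmul ℝ]
  exact Submodule.smul_mem _ _ (Submodule.subset_span ⟨i, rfl⟩)

/-- The period lattice has rank twice the dimension. -/
theorem finrank_periodLattice :
    Module.finrank ℤ (periodLattice N) = 2 * Module.finrank ℂ (CuspForm (Gamma0 N) 2) := by
  classical
  have : FiniteDimensional ℂ (CuspForm (Gamma0 N) 2) := HeckeLift.finiteDimensional_cuspForm
  obtain ⟨hfd, hfr⟩ := finiteDimensional_dual_real (N := N)
  let b := Module.finBasis ℤ (periodLattice N)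
  refine le_antisymm ?_ ?_
  · -- `Hom(L, ℂ)` embeds into the parabolic homomorphisms
    let Φ : ((Fin (Module.finrank ℤ (periodLattice N))) → ℂ) →ₗ[ℂ]
        parabolicHoms ℂ (Gamma0 N) ℂ :=
      { toFun := fun c => ⟨(b.constr ℤ c).toAddMonoidHom.comp (toLattice N),
          comp_toLattice_isParabolicHom _⟩
        map_add' := fun c d => Subtype.ext (AddMonoidHom.ext fun γ => by
          show b.constr ℤ (c + d) _ = b.constr ℤ c _ + b.constr ℤ d _
          rw [map_add]
          rfl)
        map_smul' := fun a c => Subtype.ext (AddMonoidHom.ext fun γ => by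
          show b.constr ℤ (a • c) (toLattice N γ) = a • b.constr ℤ c (toLattice N γ)
          rw [Module.Basis.constr_apply_fintype, Module.Basis.constr_apply_fintype,
            Finset.smul_sum]
          exact Finset.sum_congr rfl fun i _ => smul_comm _ a (c i)) }
    have hinj : Function.Injective Φ := fun c d h => by
      refine (b.constr ℤ).injective (LinearMap.ext fun v => ?_)
      obtain ⟨γ, rfl⟩ := toLattice_surjective (N := N) v
      exact DFunLike.congr_fun (congrArg Subtype.val h) γ
    have hPar : Module.finrank ℂ (parabolicHoms ℂ (Gamma0 N) ℂ)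
        = 2 * Module.finrank ℂ (CuspForm (Gamma0 N) 2) := by
      rw [← (S21.result N).2, LinearMap.finrank_range_of_inj (S21.result N).1,
        Module.finrank_prod, two_mul]
    have : FiniteDimensional ℂ (parabolicHoms ℂ (Gamma0 N) ℂ) := by
      rw [← (S21.result N).2]
      infer_instance
    have h := LinearMap.finrank_le_finrank_of_injective hinj
    rw [Module.finrank_fin_fun, hPar] at h
    exact h
  · rw [← hfr, ← finrank_top ℝ, ← span_range_basis_periodLattice b]
    refine (finrank_range_le_card (R := ℝ)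
      (b := fun i => (b i : Module.Dual ℂ (CuspForm (Gamma0 N) 2)))).trans ?_
    rw [Fintype.card_fin]

/-- The action on the period lattice as a ring homomorphism. -/
def latticeHom (hN : N.Prime) :
    CuspForm.heckeAlgebra N 2 ({N} : Set ℕ) →+* Module.End ℤ (periodLattice N) where
  toFun := latticeAct (level_mem_singleton hN)
  map_one' := LinearMap.ext fun v => Subtype.ext (by rw [latticeAct_apply]; rfl)
  map_mul' x y := LinearMap.ext fun v => Subtype.ext (by
    rw [mul_comm x y, Module.End.mul_apply, latticeAct_apply, latticeAct_apply, latticeAct_apply]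
    rfl)
  map_zero' := map_zero _
  map_add' := map_add _

/-- A monic integer polynomial which over `ℝ` is the square of a monic separable polynomial is
the square of a separable integer polynomial. -/
theorem exists_sqrt_of_map_eq_sq {q : ℤ[X]} (hq1 : q.Monic) {P : ℝ[X]} (hP : P.Monic)
    (hPsep : P.Separable) (hq : q.map (Int.castRingHom ℝ) = P ^ 2) :
    ∃ m : ℤ[X], m.Monic ∧ m.map (Int.castRingHom ℝ) = P ∧
      (m.map (Int.castRingHom ℚ)).Separable := by
  classical
  set qQ : ℚ[X] := q.map (Int.castRingHom ℚ)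
  have hqQ : qQ.map (algebraMap ℚ ℝ) = P ^ 2 := by
    rw [Polynomial.map_map, ← hq]
    exact congrArg (fun f => q.map f) (RingHom.ext_int _ _)
  set g := EuclideanDomain.gcd qQ (derivative qQ)
  have hgR : Associated (g.map (algebraMap ℚ ℝ)) P := by
    rw [← Polynomial.gcd_map, ← derivative_map, hqQ]
    refine associated_of_dvd_dvd ?_ (EuclideanDomain.dvd_gcd (dvd_pow_self P two_ne_zero) ?_)
    · obtain ⟨u, v, huv⟩ := hPsep
      have hid : P = u * P ^ 2 + (v * C (1 / 2 : ℝ)) * derivative (P ^ 2) := by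
        rw [derivative_pow]
        have h2 : C (1 / 2 : ℝ) * C ((2 : ℕ) : ℝ) = (1 : ℝ[X]) := by
          rw [← C_mul]; norm_num
        linear_combination (norm := ring_nf) (-P) * huv - v * derivative P * P * h2
      conv_rhs => rw [hid]
      exact dvd_add ((EuclideanDomain.gcd_dvd_left _ _).trans (dvd_mul_left _ _))
        ((EuclideanDomain.gcd_dvd_right _ _).trans (dvd_mul_left _ _))
    · rw [derivative_pow]
      exact dvd_mul_of_dvd_left (dvd_mul_of_dvd_right (by simp) _) _
  have hg0 : g ≠ 0 := fun h0 => hP.ne_zero (by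
    have h := hgR
    rw [h0, Polynomial.map_zero] at h
    exact h.eq_zero_iff.mp rfl)
  set mQ := g * C g.leadingCoeff⁻¹
  have hmQ : mQ.Monic := monic_mul_leadingCoeff_inv hg0
  have hmR : mQ.map (algebraMap ℚ ℝ) = P := by
    refine eq_of_monic_of_associated (hmQ.map _) hP (Associated.trans ?_ hgR)
    rw [Polynomial.map_mul, map_C]
    refine associated_mul_unit_left _ _ (isUnit_C.mpr (Ne.isUnit ?_))
    simp [hg0]
  obtain ⟨m, hm⟩ := IsIntegrallyClosed.eq_map_mul_C_of_dvd ℚ (f := q) hq1
    (g := mQ) (by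
      refine (associated_mul_unit_left g _ (isUnit_C.mpr (Ne.isUnit
        (inv_ne_zero (leadingCoeff_ne_zero.mpr hg0))))).dvd.trans ?_
      exact EuclideanDomain.gcd_dvd_left _ _)
  rw [hmQ.leadingCoeff, C_1, mul_one] at hm
  refine ⟨m, monic_of_injective (f := algebraMap ℤ ℚ) Int.cast_injective (hm ▸ hmQ), ?_, ?_⟩
  · rw [← hmR, ← hm, Polynomial.map_map]
    exact congrArg (fun f => m.map f) (RingHom.ext_int _ _)
  · have h := (show mQ.Separable from (separable_map (algebraMap ℚ ℝ)).mp (hmR ▸ hPsep))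
    have e : algebraMap ℤ ℚ = Int.castRingHom ℚ := RingHom.ext_int _ _
    rw [← hm, e] at h
    exact h

/-- An integer matrix which is a real polynomial in `T` has a nonzero multiple which is an integer
polynomial in `T`. -/
theorem exists_smul_eq_aeval_of_map_eq {n : Type*} [Fintype n] [DecidableEq n]
    (T U : Matrix n n ℤ) (F : ℝ[X])
    (hF : U.map ((↑) : ℤ → ℝ) = aeval (T.map ((↑) : ℤ → ℝ)) F) :
    ∃ (c : ℤ) (G : ℤ[X]), c ≠ 0 ∧ c • U = G.eval₂ (Int.castRingHom _) T := by
  set Tq := T.map ((↑) : ℤ → ℚ)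
  set Uq := U.map ((↑) : ℤ → ℚ)
  have hmem : Uq ∈ LinearMap.range (aeval (R := ℚ) Tq).toLinearMap := by
    by_contra hnot
    obtain ⟨φ, hφu, hφ⟩ := Submodule.exists_dual_map_eq_bot_of_notMem hnot inferInstance
    let φR : Matrix n n ℝ →ₗ[ℝ] ℝ :=
      { toFun := fun A => ∑ i, ∑ j, A i j * (φ (Matrix.single i j 1) : ℝ)
        map_add' := fun A A' => by simp [add_mul, Finset.sum_add_distrib]
        map_smul' := fun c A => by simp [Finset.mul_sum, mul_assoc] }
    have hφR : ∀ A : Matrix n n ℚ, φR (A.map (fun x : ℚ => (x : ℝ))) = (φ A : ℝ) := fun A => by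
      show ∑ i, ∑ j, (A i j : ℝ) * (φ (Matrix.single i j 1) : ℝ) = _
      conv_rhs => rw [Matrix.matrix_eq_sum_single A]
      simp only [map_sum, Rat.cast_sum]
      refine Finset.sum_congr rfl fun i _ => Finset.sum_congr rfl fun j _ => ?_
      rw [← Rat.cast_mul, ← smul_eq_mul, ← map_smul, Matrix.smul_single, smul_eq_mul, mul_one]
    have hcast : ∀ A : Matrix n n ℤ,
        A.map ((↑) : ℤ → ℝ) = (A.map ((↑) : ℤ → ℚ)).map (fun x : ℚ => (x : ℝ)) := fun A =>
      Matrix.ext fun i j => (Rat.cast_intCast _).symm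
    have hpow : ∀ k : ℕ, φR (T.map ((↑) : ℤ → ℝ) ^ k) = 0 := fun k => by
      rw [show T.map ((↑) : ℤ → ℝ) ^ k = (T ^ k).map ((↑) : ℤ → ℝ) from
          (map_pow (Int.castRingHom ℝ).mapMatrix T k).symm, hcast, hφR,
        show (T ^ k).map ((↑) : ℤ → ℚ) = Tq ^ k from
          map_pow (Int.castRingHom ℚ).mapMatrix T k]
      have h3 : φ (Tq ^ k) ∈ (LinearMap.range (aeval (R := ℚ) Tq).toLinearMap).map φ :=
        Submodule.mem_map_of_mem ⟨X ^ k, by simp⟩
      rw [hφ, Submodule.mem_bot] at h3
      rw [h3, Rat.cast_zero]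
    have h4 := congrArg φR hF
    rw [aeval_eq_sum_range, map_sum, Finset.sum_eq_zero (fun k _ => by
      rw [map_smul, hpow, smul_zero]), hcast, hφR] at h4
    exact hφu (by exact_mod_cast h4)
  obtain ⟨Fq, hFq⟩ := hmem
  obtain ⟨c, hc, hG⟩ :=
    IsLocalization.integerNormalization_spec (nonZeroDivisors ℤ) (S := ℚ) Fq
  set G := IsLocalization.integerNormalization (nonZeroDivisors ℤ) Fq
  refine ⟨c, G, nonZeroDivisors.ne_zero hc,
    Matrix.map_injective (Int.cast_injective (α := ℚ)) ?_⟩
  rw [show G.eval₂ (Int.castRingHom _) T = aeval T G by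
    rw [aeval_def]; exact congrArg (fun f => eval₂ f T G) (RingHom.ext_int _ _)]
  show (Int.castRingHom ℚ).mapMatrix (c • U) = (Int.castRingHom ℚ).mapMatrix (aeval T G)
  rw [map_zsmul]
  refine Eq.trans ?_ (aeval_algHom_apply ((Int.castRingHom ℚ).mapMatrix.toIntAlgHom) T G)
  show c • Uq = aeval Tq G
  rw [aeval_def, RingHom.ext_int (algebraMap ℤ (Matrix n n ℚ)) (Int.castRingHom _)]
  rw [← hFq]
  have h6 := congrArg (aeval (R := ℚ) Tq) hG
  rw [map_zsmul, show algebraMap ℤ ℚ = Int.castRingHom ℚ from RingHom.ext_int _ _,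
    aeval_map_int] at h6
  exact h6.symm

section Diagonal

variable {W : Type*} [AddCommGroup W] [Module ℝ W] {ι : Type*} [Fintype ι]
  (B : Module.Basis (Fin 2 × ι) ℝ W) {f : Module.End ℝ W} {a : ι → ℝ}

/-- An operator with the real eigenvalues `a i`, each occurring twice, has the characteristic
polynomial `(∏ (X - a i)) ^ 2`. -/
theorem charpoly_eq_prod_sq [Module.Finite ℝ W] (hf : ∀ k, f (B k) = a k.2 • B k) :
    f.charpoly = (∏ i, (X - C (a i))) ^ 2 := by
  classical
  rw [← LinearMap.charpoly_toMatrix f B]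
  have hdiag : LinearMap.toMatrix B B f = Matrix.diagonal fun k => a k.2 := by
    refine Matrix.ext fun x y => ?_
    rw [LinearMap.toMatrix_apply, hf, map_smul, Module.Basis.repr_self, Finsupp.smul_apply,
      Matrix.diagonal_apply, Finsupp.single_apply, smul_eq_mul]
    by_cases h : x = y
    · subst h; simp
    · simp [h, Ne.symm h]
  rw [hdiag, Matrix.charpoly_diagonal, Fintype.prod_prod_type, Fin.prod_univ_two, sq]

/-- Such an operator is killed by `∏ (X - a i)`. -/
theorem aeval_prod_eq_zero (hf : ∀ k, f (B k) = a k.2 • B k) :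
    aeval f (∏ i, (X - C (a i))) = 0 :=
  B.ext fun k => by
    rw [Module.End.aeval_apply_of_hasEigenvector
      ⟨Module.End.mem_eigenspace_iff.mpr (hf k), B.ne_zero k⟩, LinearMap.zero_apply]
    rw [eval_prod, Finset.prod_eq_zero (Finset.mem_univ k.2) (by simp), zero_smul]

/-- If the eigenvalues `a i` are distinct, an operator diagonal in the same basis is a polynomial
in such an operator. -/
theorem exists_eq_aeval (hf : ∀ k, f (B k) = a k.2 • B k) (ha : Function.Injective a)
    {g : Module.End ℝ W} {c : ι → ℝ} (hg : ∀ k, g (B k) = c k.2 • B k) :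
    ∃ F : ℝ[X], g = aeval f F := by
  classical
  exact ⟨Lagrange.interpolate Finset.univ a c, B.ext fun k => by
    rw [hg, Module.End.aeval_apply_of_hasEigenvector
      ⟨Module.End.mem_eigenspace_iff.mpr (hf k), B.ne_zero k⟩,
      Lagrange.eval_interpolate_at_node _ ha.injOn (Finset.mem_univ k.2)]⟩

end Diagonal

/-- On the real basis of the dual space attached to an eigenbasis with real eigenvalues the dual
operator is diagonal. -/
theorem dualMap_restrictScalars_apply {V : Type*} [AddCommGroup V] [Module ℂ V] {ι : Type*}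
    [Finite ι] [DecidableEq ι] (b : Module.Basis ι ℂ V) {u : Module.End ℂ V} {a : ι → ℝ}
    (hu : ∀ i, u (b i) = (a i : ℂ) • b i) (k : Fin 2 × ι) :
    (LinearMap.dualMap u).restrictScalars ℝ (Complex.basisOneI.smulTower b.dualBasis k) =
      a k.2 • Complex.basisOneI.smulTower b.dualBasis k := by
  have hd : LinearMap.dualMap u (b.dualBasis k.2) = (a k.2 : ℂ) • b.dualBasis k.2 := by
    refine b.ext fun j => ?_
    rw [LinearMap.dualMap_apply, hu, map_smul, LinearMap.smul_apply]
    simp only [Module.Basis.dualBasis_apply_self, smul_eq_mul]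
    split_ifs with h
    · rw [h]
    · simp
  show LinearMap.dualMap u _ = _
  simp only [Module.Basis.smulTower_apply]
  rw [map_smul, hd, smul_comm, ← Complex.coe_smul]

/-- In a real basis made of periods a dual Hecke operator has an integral matrix. -/
theorem toMatrix_dualMap_periods (hN : N.Prime) {κ : Type*} [Fintype κ] [DecidableEq κ]
    (bL : Module.Basis κ ℤ (periodLattice N)) (bR : Module.Basis κ ℝ Vd)
    (hbR : ∀ i, bR i = (bL i : Vd)) (u : CuspForm.heckeAlgebra N 2 ({N} : Set ℕ)) :
    LinearMap.toMatrixAlgEquiv bR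
        ((LinearMap.dualMap (u : Module.End ℂ (CuspForm (Gamma0 N) 2))).restrictScalars ℝ) =
      (LinearMap.toMatrixAlgEquiv bL (latticeHom hN u)).map ((↑) : ℤ → ℝ) := by
  refine Matrix.ext fun i j => ?_
  rw [LinearMap.toMatrixAlgEquiv_apply, Matrix.map_apply]
  have h1 : (LinearMap.dualMap (u : Module.End ℂ (CuspForm (Gamma0 N) 2))).restrictScalars ℝ (bR j)
      = ∑ k, ((LinearMap.toMatrixAlgEquiv bL (latticeHom hN u) k j : ℤ) : ℝ) • bR k := by
    simp only [hbR]
    show LinearMap.dualMap _ (bL j : Vd) = _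
    rw [← latticeAct_apply (level_mem_singleton hN)]
    have h2 := congrArg Subtype.val (bL.sum_repr (latticeHom hN u (bL j)))
    rw [Submodule.coe_sum] at h2
    refine h2.symm.trans (Finset.sum_congr rfl fun k _ => ?_)
    rw [Submodule.coe_smul, ← Int.cast_smul_eq_zsmul ℝ]
    simp only [LinearMap.toMatrixAlgEquiv_apply]
  rw [h1, bR.repr_sum_self]

/-- A primitive element of the Hecke algebra at prime level and its polynomial. -/
theorem exists_primitive (hN : N.Prime) :
    ∃ (t : CuspForm.heckeAlgebra N 2 ({N} : Set ℕ)) (m : ℤ[X]), m.Monic ∧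
      m.natDegree = Module.finrank ℂ (CuspForm (Gamma0 N) 2) ∧
      (m.map (Int.castRingHom ℚ)).Separable ∧ Polynomial.aeval t m = 0 ∧
      (latticeAct (level_mem_singleton hN) t).charpoly = m ^ 2 ∧
      ∀ u, ∃ (c : ℤ) (F : ℤ[X]), c ≠ 0 ∧ c • u = Polynomial.aeval t F := by
  classical
  obtain ⟨ι, _, b, χ, hχ, hb⟩ := exists_eigenbasis hN
  have : FiniteDimensional ℂ (CuspForm (Gamma0 N) 2) := HeckeLift.finiteDimensional_cuspForm
  obtain ⟨hfd, hfr⟩ := finiteDimensional_dual_real (N := N)
  obtain ⟨t, ht⟩ := exists_forall_map_ne_zero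
    ((Finset.univ : Finset (ι × ι)).filter fun x => x.1 ≠ x.2) (fun x => χ x.1 - χ x.2)
    (fun x hx => sub_ne_zero.mpr fun h => (Finset.mem_filter.mp hx).2 (hχ h))
  have hreal : ∀ i u, ((χ i u).re : ℂ) = χ i u := fun i u =>
    Complex.conj_eq_iff_re.mp (Petersson.conj_eigenvalue_eq
      (Petersson.inner_comm_of_mem_heckeAlgebra (level_mem_singleton hN) u.2) (b.ne_zero i) (hb i u))
  set a : ι → ℝ := fun i => (χ i t).re
  have ha : Function.Injective a := fun i j hij => by
    by_contra hne
    refine ht (i, j) (Finset.mem_filter.mpr ⟨Finset.mem_univ _, hne⟩) ?_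
    show χ i t - χ j t = 0
    rw [← hreal i, ← hreal j, show (χ i t).re = (χ j t).re from hij, sub_self]
  -- the real structure
  let B := Complex.basisOneI.smulTower b.dualBasis
  let op : CuspForm.heckeAlgebra N 2 ({N} : Set ℕ) → Module.End ℝ Vd := fun u =>
    (LinearMap.dualMap (u : Module.End ℂ (CuspForm (Gamma0 N) 2))).restrictScalars ℝ
  have hop : ∀ u k, op u (B k) = (χ k.2 u).re • B k := fun u k =>
    dualMap_restrictScalars_apply b (a := fun i => (χ i u).re)
      (fun i => by rw [hreal]; exact hb i u) k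
  set P : ℝ[X] := ∏ i, (X - C (a i))
  have hP : P.Monic := monic_prod_of_monic _ _ fun i _ => monic_X_sub_C (a i)
  -- an integral basis of periods is a real basis
  let bL := Module.finBasis ℤ (periodLattice N)
  let bR := basisOfTopLeSpanOfCardEqFinrank (fun i => (bL i : Vd))
    (span_range_basis_periodLattice bL).ge
    (by rw [Fintype.card_fin, finrank_periodLattice, hfr])
  let Mz := (LinearMap.toMatrixAlgEquiv bL).toRingEquiv.toRingHom.comp (latticeHom hN)
  have hmat : ∀ u, LinearMap.toMatrixAlgEquiv bR (op u) = (Mz u).map ((↑) : ℤ → ℝ) :=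
    toMatrix_dualMap_periods hN bL bR fun i => by simp [bR]
  have hq : (Mz t).charpoly.map (Int.castRingHom ℝ) = P ^ 2 := by
    rw [← charpoly_eq_prod_sq B (hop t), ← LinearMap.charpoly_toMatrix (op t) bR,
      ← Matrix.charpoly_map]
    exact congrArg Matrix.charpoly (hmat t).symm
  obtain ⟨m, hmm, hmR, hmsep⟩ := exists_sqrt_of_map_eq_sq (Matrix.charpoly_monic _) hP
    (separable_prod_X_sub_C_iff.mpr ha) hq
  have hback : ∀ x, Mz x = 0 → x = 0 := fun x hx => by
    refine latticeAct_injective (level_mem_singleton hN) ?_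
    rw [map_zero]
    exact (LinearMap.toMatrixAlgEquiv bL).injective (hx.trans (map_zero _).symm)
  refine ⟨t, m, hmm, ?_, hmsep, ?_, ?_, fun u => ?_⟩
  · rw [← hmm.natDegree_map (Int.castRingHom ℝ), hmR,
      natDegree_prod_of_monic _ _ fun i _ => monic_X_sub_C (a i), Module.finrank_eq_card_basis b]
    simp
  · refine hback _ (Matrix.map_injective (Int.cast_injective (α := ℝ)) ?_)
    dsimp only
    rw [Matrix.map_zero _ Int.cast_zero]
    have h1 : (Mz (aeval t m)).map ((↑) : ℤ → ℝ)
        = aeval (LinearMap.toMatrixAlgEquiv bR (op t)) P := by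
      rw [hmat t, ← hmR, aeval_map_int]
      exact ringHom_aeval_int ((Int.castRingHom ℝ).mapMatrix.comp Mz) t m
    rw [h1, aeval_algHom_apply (LinearMap.toMatrixAlgEquiv bR),
      aeval_prod_eq_zero B (hop t), map_zero]
  · refine Polynomial.map_injective (Int.castRingHom ℝ) Int.cast_injective ?_
    rw [Polynomial.map_pow, hmR, ← hq]
    congr 1
    rw [← LinearMap.charpoly_toMatrix (latticeAct (level_mem_singleton hN) t) bL]
    rfl
  · -- every operator is a rational polynomial in `t`
    obtain ⟨F, hF⟩ := exists_eq_aeval B (hop t) ha (c := fun i => (χ i u).re) (hop u)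
    obtain ⟨c, G, hc, hG⟩ := exists_smul_eq_aeval_of_map_eq (Mz t) (Mz u) F (by
      rw [← hmat u, ← hmat t, hF, aeval_algHom_apply (LinearMap.toMatrixAlgEquiv bR)])
    refine ⟨c, G, hc, sub_eq_zero.mp (hback _ ?_)⟩
    rw [map_sub, sub_eq_zero, map_zsmul Mz]
    exact hG.trans (ringHom_aeval_int Mz t G).symm

end Fermat.Agent.EisensteinTate
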