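import Fermat.Agent.EisensteinTate.Primary
import Fermat.Agent.EisensteinTate.Eigen
import Fermat.Agent.EisensteinTate.Congr
import Fermat.Agent.EisensteinTate.Periods
import Fermat.Agent.JacCompare.Faithful
import Fermat.Agent.EisensteinDescent.EisensteinGen
import Fermat.Agent.EisensteinDescent.EigenBound
import Mathlib.FieldTheory.IsAlgClosed.AlgebraicClosure

/-!
# Eigen-coordinates of the primary Tate module of `J₀(N)`

The Tate module of the primary part of `J₀(N)`, `N` prime: eigen-coordinates with two-dimensional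
components, and no component with the eigenvalue `±(q + 1)` of `T_q`.
-/

noncomputable section

namespace Fermat.Agent.EisensteinTate

open CongruenceSubgroup ModularCurve Polynomial
open HeckeLattice (FreeHecke AwayIdx evalFree evalFree_surjective transferAct periodLattice
  latticeAct latticeAct_apply comp_transferAct parHom periodDual dualMap_periodDual)
open EisensteinDescent (awayAlg awayT awayTq awayTq_eq EigenData)
open HeckeDatum (ParChar parTransfer coe_lift_parTransfer)
open CarayolReduction (tateModule tateModule_pow_smul)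
open GaloisBasics
open scoped MatrixGroups Matrix IsMulCommutative

variable {N : ℕ} [NeZero N]

/-- The torsion count of `J₀(N)`. -/
theorem hasTorsionRank_jZero (N : ℕ) [NeZero N] {p : ℕ} (hp : p.Prime) :
    HasTorsionRank (JZero N) p (2 * Module.finrank ℂ (CuspForm (Gamma0 N) 2)) := by
  refine ⟨fun n => ?_⟩
  have h := JacCompare.card_torsBy N (p ^ n) (pow_pos hp.pos n)
  rw [JacCompare.rk_eq N, ← pow_mul, mul_comm] at h
  exact h

variable (N) in
/-- Formal operators acting on `J₀(N)`. -/
def evalAway : FreeHecke ({N} : Set ℕ) →ₐ[ℤ] awayAlg N :=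
  FreeAlgebra.lift ℤ fun ℓ => awayT N ℓ.1 ℓ.2

variable (N) in
theorem coe_evalAway (Q : FreeHecke ({N} : Set ℕ)) :
    (evalAway N Q : Module.End ℤ (JZero N)) =
      FreeAlgebra.lift ℤ (fun ℓ : AwayIdx ({N} : Set ℕ) => heckeOperatorBar N ℓ.1) Q := by
  have h : (awayAlg N).val.comp (evalAway N) =
      FreeAlgebra.lift ℤ (fun ℓ : AwayIdx ({N} : Set ℕ) => heckeOperatorBar N ℓ.1) := by
    refine FreeAlgebra.hom_ext (funext fun ℓ => ?_)
    simp only [Function.comp_apply, AlgHom.comp_apply, evalAway, FreeAlgebra.lift_ι_apply]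
    rfl
  exact AlgHom.congr_fun h Q

variable (N) in
/-- Every operator away from `N` comes from a formal one. -/
theorem evalAway_surjective : Function.Surjective (evalAway N) := by
  intro t
  have hle : awayAlg N ≤
      (FreeAlgebra.lift ℤ (fun ℓ : AwayIdx ({N} : Set ℕ) => heckeOperatorBar N ℓ.1)).range := by
    refine Algebra.adjoin_le ?_
    rintro _ ⟨q, hq, rfl⟩
    exact ⟨FreeAlgebra.ι ℤ ⟨q, hq⟩, FreeAlgebra.lift_ι_apply _ _⟩
  obtain ⟨Q, hQ⟩ := hle t.2
  exact ⟨Q, Subtype.ext ((coe_evalAway N Q).trans hQ)⟩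

/-- Transfers of characters of the period lattice. -/
theorem transferAct_comp_toLattice (hN : N.Prime) {B : Type*} [AddCommGroup B]
    (ψ : periodLattice N →+ B) (Q : FreeHecke ({N} : Set ℕ)) :
    transferAct (level_mem_singleton hN) B Q (ψ.comp (toLattice N)) =
      (ψ.comp (latticeAct (level_mem_singleton hN)
        (evalFree (level_mem_singleton hN) Q)).toAddMonoidHom).comp (toLattice N) := by
  refine AddMonoidHom.ext fun γ => ?_
  have hπ : latticeAct (level_mem_singleton hN) (evalFree (level_mem_singleton hN) Q)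
        (toLattice N γ) =
      (periodDual N).toIntLinearMap.rangeRestrict
        (transferAct (level_mem_singleton hN) (HeckeLattice.ParGroup N) Q (parHom N) γ) :=
    Subtype.ext (by
      rw [latticeAct_apply]
      exact dualMap_periodDual (level_mem_singleton hN) Q γ)
  have h := DFunLike.congr_fun (comp_transferAct (level_mem_singleton hN)
    (ψ.comp (periodDual N).toIntLinearMap.rangeRestrict.toAddMonoidHom) Q (parHom N)) γ
  show _ = ψ (latticeAct (level_mem_singleton hN) (evalFree (level_mem_singleton hN) Q)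
    (toLattice N γ))
  rw [hπ]
  exact h.symm

variable {p : ℕ} [hp : Fact p.Prime] [IsMulCommutative (awayAlg N)]

omit hp [IsMulCommutative (awayAlg N)] in
theorem evalAway_smul (Q : FreeHecke ({N} : Set ℕ)) (x : JZero N) :
    evalAway N Q • x =
      FreeAlgebra.lift ℤ (fun ℓ : AwayIdx ({N} : Set ℕ) => heckeOperatorBar N ℓ.1) Q x :=
  LinearMap.congr_fun (coe_evalAway N Q) x

/-- Operators vanishing on cusp forms kill the Tate module. -/
theorem tateEnd_evalAway_eq_zero (hN : N.Prime) {Q : FreeHecke ({N} : Set ℕ)}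
    (hQ : evalFree (level_mem_singleton hN) Q = 0) :
    (tateEnd (evalAway N Q) : Module.End ℤ_[p] (tateModule (JZero N) p)) = 0 :=
  LinearMap.ext fun x => Subtype.ext (funext fun n => by
    rw [tateEnd_apply, evalAway_smul,
      JacCompare.lift_heckeOperatorBar_eq_zero (level_mem_singleton hN) hp.out hQ n
        (tateModule_pow_smul x n)]
    rfl)

/-- The characteristic polynomial on the Tate module is the one on the period lattice. -/
theorem charpoly_tateEnd (hN : N.Prime) (Q : FreeHecke ({N} : Set ℕ))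
    [Module.Free ℤ_[p] (tateModule (JZero N) p)] [Module.Finite ℤ_[p] (tateModule (JZero N) p)] :
    (tateEnd (evalAway N Q) : Module.End ℤ_[p] (tateModule (JZero N) p)).charpoly =
      ((latticeAct (level_mem_singleton hN)
        (evalFree (level_mem_singleton hN) Q)).charpoly).map (Int.castRingHom ℤ_[p]) := by
  classical
  set g := Module.finrank ℂ (CuspForm (Gamma0 N) 2)
  have h := hasTorsionRank_jZero N hp.out
  set f : Module.End ℤ_[p] (tateModule (JZero N) p) := tateEnd (evalAway N Q)
  let bT := Module.finBasisOfFinrankEq ℤ_[p] (tateModule (JZero N) p) h.finrank_eq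
  let bL := Module.finBasisOfFinrankEq ℤ (periodLattice N) (finrank_periodLattice (N := N))
  set u := latticeAct (level_mem_singleton hN) (evalFree (level_mem_singleton hN) Q)
  set M := LinearMap.toMatrix bL bL u
  have hd : 6 * N ≠ 0 := mul_ne_zero (by norm_num) (NeZero.ne N)
  rw [← LinearMap.charpoly_toMatrix f bT, ← LinearMap.charpoly_toMatrix u bL, ← Matrix.charpoly_map,
    ← Matrix.charpoly_transpose (M.map (Int.castRingHom ℤ_[p]))]
  refine (charpoly_eq_of_intertwine _ _ ((6 * N).factorization p * (2 * g)) fun r => ?_).symm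
  have : NeZero (p ^ r) := ⟨pow_ne_zero _ hp.out.ne_zero⟩
  obtain ⟨Φ, hT, hker⟩ :=
    JacCompare.exists_compareMap_lift N (p ^ r) (level_mem_singleton hN)
  obtain ⟨co, hco⟩ := exists_coords h bT r
  let Ψ : (Fin (2 * g) → ZMod (p ^ r)) →+ ParChar N (p ^ r) :=
    { toFun := fun c =>
        ⟨(bL.constr ℤ c).toAddMonoidHom.comp (toLattice N), comp_toLattice_isParabolicHom _⟩
      map_zero' := Subtype.ext (AddMonoidHom.ext fun γ => by
        show bL.constr ℤ 0 _ = 0
        rw [map_zero]
        rfl)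
      map_add' := fun c d => Subtype.ext (AddMonoidHom.ext fun γ => by
        show bL.constr ℤ (c + d) _ = bL.constr ℤ c _ + bL.constr ℤ d _
        rw [map_add]
        rfl) }
  have hΨinj : Function.Injective Ψ := fun c d hcd => by
    refine (bL.constr ℤ).injective (LinearMap.ext fun v => ?_)
    obtain ⟨γ, rfl⟩ := toLattice_surjective (N := N) v
    exact DFunLike.congr_fun (congrArg Subtype.val hcd) γ
  have hpr : ∀ χ : ParChar N (p ^ r), p ^ r • χ = 0 := fun χ =>
    Subtype.ext (AddMonoidHom.ext fun γ => by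
      rw [Submodule.coe_smul_of_tower, AddMonoidHom.nsmul_apply, nsmul_eq_mul, ZMod.natCast_self,
        zero_mul]
      rfl)
  let F : (Fin (2 * g) → ZMod (p ^ r)) →+ (Fin (2 * g) → ZMod (p ^ r)) :=
    co.symm.toAddMonoidHom.comp ((Φ.comp Ψ).codRestrict (tors (JZero N) (p ^ r)) fun c => by
      rw [mem_tors, AddMonoidHom.comp_apply, ← map_nsmul, hpr, map_zero])
  have hF : ∀ c, (co (F c) : JZero N) = Φ (Ψ c) := fun c =>
    congrArg Subtype.val (co.apply_symm_apply _)
  refine ⟨F, fun c => ?_, fun y => ?_⟩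
  · refine co.injective (Subtype.ext ?_)
    rw [hF, ← hco f (DistribSMul.toAddMonoidHom (JZero N) (evalAway N Q)) (fun _ _ => rfl), hF,
      DistribSMul.toAddMonoidHom_apply, evalAway_smul, ← hT]
    refine congrArg Φ (Subtype.ext ?_)
    rw [coe_lift_parTransfer]
    show _ = transferAct _ _ Q ((bL.constr ℤ c).toAddMonoidHom.comp (toLattice N))
    rw [transferAct_comp_toLattice hN]
    show (bL.constr ℤ _).toAddMonoidHom.comp _ = _
    refine congrArg (fun ψ => AddMonoidHom.comp ψ (toLattice N)) ?_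
    have hlin : bL.constr ℤ
        (redMat r ((M.map (Int.castRingHom ℤ_[p]))ᵀ) *ᵥ c) = (bL.constr ℤ c).comp u := by
      refine bL.ext fun j => ?_
      rw [LinearMap.comp_apply, Module.Basis.constr_basis]
      conv_rhs => rw [← bL.sum_repr (u (bL j))]
      simp only [map_sum, map_zsmul, Module.Basis.constr_basis, Matrix.mulVec, dotProduct, redMat,
        Matrix.map_apply, Matrix.transpose_apply, M, LinearMap.toMatrix_apply]
      refine Finset.sum_congr rfl fun i _ => ?_
      rw [eq_intCast, map_intCast, zsmul_eq_mul]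
    exact congrArg LinearMap.toAddMonoidHom hlin
  · refine pow_smul_mem_range hd F (fun c hc => hΨinj ?_) y
    rw [map_nsmul, map_zero]
    refine hker _ ?_
    rw [← hF, hc, map_zero]
    rfl

omit [IsMulCommutative (awayAlg N)] hp in
/-- `T_q ± (q + 1)` divides a nonzero integer in the Hecke algebra. -/
theorem exists_mul_add_intCast_eq_zero (hN : N.Prime) {q : ℕ} (hq : q.Prime) (hqN : q ≠ N)
    (ε : ℤ) (hε : |ε| = 1) :
    ∃ (z : CuspForm.heckeAlgebra N 2 ({N} : Set ℕ)) (D : ℤ), D ≠ 0 ∧
      (CuspForm.heckeAlgebra.T hq (fun h => hqN ((Nat.prime_dvd_prime_iff_eq hq hN).mp h)) hqN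
        - ((ε * (q + 1) : ℤ) : CuspForm.heckeAlgebra N 2 ({N} : Set ℕ))) * z
          + (D : CuspForm.heckeAlgebra N 2 ({N} : Set ℕ)) = 0 := by
  classical
  have : FiniteDimensional ℂ (CuspForm (Gamma0 N) 2) := HeckeLift.finiteDimensional_cuspForm
  have hqN' : ¬ q ∣ N := fun h => hqN ((Nat.prime_dvd_prime_iff_eq hq hN).mp h)
  set y := CuspForm.heckeAlgebra.T hq hqN' (show q ∉ ({N} : Set ℕ) from hqN)
    - ((ε * (q + 1) : ℤ) : CuspForm.heckeAlgebra N 2 ({N} : Set ℕ)) with hy
  have hinj : Function.Injective (y : Module.End ℂ (CuspForm (Gamma0 N) 2)) := by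
    rw [injective_iff_map_eq_zero]
    intro v hv
    by_contra hv0
    have heq : CuspForm.heckeTLin 2 hq hqN' v = ((ε * (q + 1) : ℤ) : ℂ) • v := by
      rw [Int.cast_smul_eq_zsmul]
      rw [hy, AddSubgroupClass.coe_sub, LinearMap.sub_apply, sub_eq_zero, SubringClass.coe_intCast,
        Module.End.intCast_apply] at hv
      exact hv
    have hb := EisensteinDescent.norm_eigenvalue_lt_succ hq hqN' hv0 heq
    rw [Complex.norm_intCast, ← Int.cast_abs, abs_mul, hε, one_mul,
      abs_of_nonneg (show (0 : ℤ) ≤ q + 1 by positivity)] at hb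
    push_cast at hb
    exact lt_irrefl _ hb
  have hsurj : Function.Surjective (y : Module.End ℂ (CuspForm (Gamma0 N) 2)) :=
    LinearMap.injective_iff_surjective.mp hinj
  set a := latticeHom hN y
  have hker : LinearMap.ker a = ⊥ := by
    refine LinearMap.ker_eq_bot.mpr fun v w hvw => Subtype.ext ?_
    refine LinearMap.dualMap_injective_of_surjective hsurj ?_
    have h1 := congrArg Subtype.val hvw
    exact h1
  have hdet : LinearMap.det a ≠ 0 := fun h =>
    (LinearMap.bot_lt_ker_of_det_eq_zero h).ne hker.symm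
  refine ⟨aeval y a.charpoly.divX, a.charpoly.coeff 0, fun h => hdet ?_, ?_⟩
  · rw [LinearMap.det_eq_sign_charpoly_coeff, h, mul_zero]
  · refine HeckeLattice.latticeAct_injective (level_mem_singleton hN) ?_
    rw [map_zero]
    show latticeHom hN _ = 0
    have hCH := a.aeval_self_charpoly
    rw [← X_mul_divX_add a.charpoly, map_add, map_mul, aeval_X, aeval_C] at hCH
    rw [map_add, map_mul, map_intCast]
    rw [ringHom_aeval_int]
    rw [eq_intCast] at hCH
    exact hCH

omit hp [IsMulCommutative (awayAlg N)] in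
/-- Transport of generation by one element along two evaluations of formal operators. -/
theorem exists_lift_generator {F A H E : Type*} [Ring F] [Ring A] [Ring H] [Ring E]
    [Algebra ℤ F] [Algebra ℤ A] [Algebra ℤ H]
    (e : F →ₐ[ℤ] A) (he : Function.Surjective e) (ev : F →ₐ[ℤ] H) (hev : Function.Surjective ev)
    (act : A →+* E) (hzero : ∀ Q, ev Q = 0 → act (e Q) = 0) (t : H) (m : ℤ[X])
    (hmt : aeval t m = 0) (hgen : ∀ u, ∃ (c : ℤ) (G : ℤ[X]), c ≠ 0 ∧ c • u = aeval t G) :
    ∃ τ : F, ev τ = t ∧ m.eval₂ (Int.castRingHom E) (act (e τ)) = 0 ∧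
      ∀ u : A, ∃ (c : ℤ) (G : ℤ[X]), c ≠ 0 ∧
        c • act u = G.eval₂ (Int.castRingHom E) (act (e τ)) := by
  obtain ⟨τ, hτ⟩ := hev t
  have haeval : ∀ G : ℤ[X], act (e (aeval τ G)) = G.eval₂ (Int.castRingHom E) (act (e τ)) :=
    fun G => by
      rw [← aeval_algHom_apply]
      rw [aeval_def, hom_eval₂]
      exact congrArg (fun f => eval₂ f (act (e τ)) G) (RingHom.ext_int _ _)
  refine ⟨τ, hτ, ?_, fun u => ?_⟩
  · rw [← haeval]
    exact hzero _ (by rw [← aeval_algHom_apply, hτ, hmt])
  · obtain ⟨Q, rfl⟩ := he u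
    obtain ⟨c, G, hc, hG⟩ := hgen (ev Q)
    refine ⟨c, G, hc, ?_⟩
    have h0 := hzero (c • Q - aeval τ G) (by
      rw [map_sub, map_zsmul, ← aeval_algHom_apply, hτ, hG, sub_self])
    rw [map_sub, map_zsmul, map_sub, map_zsmul, haeval, sub_eq_zero] at h0
    exact h0

omit hp [IsMulCommutative (awayAlg N)] in
/-- A character killing the kernel of an evaluation factors through it. -/
theorem exists_ringHom_comp {F A H E : Type*} [Ring F] [Ring A] [Ring H] [CommRing E]
    [Algebra ℤ F] [Algebra ℤ A] [Algebra ℤ H]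
    (e : F →ₐ[ℤ] A) (ev : F →ₐ[ℤ] H) (hev : Function.Surjective ev) (θ : A →+* E)
    (hzero : ∀ Q, ev Q = 0 → θ (e Q) = 0) : ∃ φ : H →+* E, ∀ Q, θ (e Q) = φ (ev Q) := by
  have hker : RingHom.ker ev.toRingHom ≤ RingHom.ker (θ.comp e.toRingHom) :=
    fun Q hQ => hzero Q hQ
  refine ⟨RingHom.liftOfRightInverse ev.toRingHom _ (Function.rightInverse_surjInv hev)
    ⟨θ.comp e.toRingHom, hker⟩, fun Q => ?_⟩
  exact (RingHom.liftOfRightInverse_comp_apply ev.toRingHom _
    (Function.rightInverse_surjInv hev) ⟨θ.comp e.toRingHom, hker⟩ Q).symm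

variable [SMulCommClass GalQ (awayAlg N) (JZero N)]

/-- **Eigen-coordinates of the primary Tate module of `J₀(N)`.** The characters are distinct and come from
characters of the Hecke algebra of cusp forms, and no `T_q` has the eigenvalue `±(q + 1)`. -/
theorem exists_eigenData_jZero (hN : N.Prime) (P : Ideal (awayAlg N)) :
    ∃ D : EigenData GalQ (primaryAct (J := JZero N) (p := p) (P := P)) (AlgebraicClosure ℚ_[p]),
      Function.Injective D.θ ∧
      (∀ i, ∃ φ : CuspForm.heckeAlgebra N 2 ({N} : Set ℕ) →+* AlgebraicClosure ℚ_[p],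
        ∀ Q, D.θ i (evalAway N Q) = φ (evalFree (level_mem_singleton hN) Q)) ∧
      ∀ i, ∀ q : ℕ, q.Prime → q ≠ N →
        D.θ i (awayTq N q) ≠ (q : AlgebraicClosure ℚ_[p]) + 1 ∧
          D.θ i (awayTq N q) ≠ -((q : AlgebraicClosure ℚ_[p]) + 1) := by
  classical
  have hNS := level_mem_singleton hN
  have h := hasTorsionRank_jZero N hp.out
  have := h.free
  have := h.finite
  have := h.primaryTate_free P
  have := h.primaryTate_finite P
  have H := exists_primitive hN
  obtain ⟨t, H⟩ := H
  obtain ⟨m, H⟩ := H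
  obtain ⟨hm, H⟩ := H
  obtain ⟨-, hsep, H⟩ := H
  obtain ⟨hmt, hchar, hgen⟩ := H
  let act : awayAlg N →+* Module.End ℤ_[p] (tateModule (JZero N) p) := tateEnd
  have H := exists_lift_generator (evalAway N) (evalAway_surjective N)
    (evalFree hNS) (evalFree_surjective hNS) act (fun Q hQ => tateEnd_evalAway_eq_zero hN hQ)
    t m hmt hgen
  obtain ⟨τ, H⟩ := H
  obtain ⟨hτ, H⟩ := H
  obtain ⟨hmτ, hgen'⟩ := H
  have hchτ : (act (evalAway N τ)).charpoly = (m.map (Int.castRingHom ℤ_[p])) ^ 2 := by
    rw [charpoly_tateEnd hN τ, hτ, hchar, Polynomial.map_pow]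
  let π₀ : tateModule (JZero N) p →ₗ[ℤ_[p]] primaryTate (JZero N) p P :=
    (h.tateProjector P).codRestrict _ (h.tateProjector_mem P)
  have hspan : (primaryTate (JZero N) p P).subtype.comp π₀
      ∈ Submodule.span ℤ_[p] (Set.range act) := by
    rw [LinearMap.subtype_comp_codRestrict]
    exact h.tateProjector_mem_span P
  have HD := exists_eigenData (Γ := GalQ) (AlgebraicClosure ℚ_[p])
    (by
      rw [IsScalarTower.algebraMap_eq ℤ_[p] ℚ_[p] (AlgebraicClosure ℚ_[p])]
      exact (algebraMap ℚ_[p] (AlgebraicClosure ℚ_[p])).injective.comp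
        (IsFractionRing.injective ℤ_[p] ℚ_[p]))
    act (evalAway N τ) hm hsep hmτ hchτ hgen'
    (fun g u x => Subtype.ext (funext fun n => smul_comm g u (x.1 n)))
    (primaryAct (J := JZero N) (p := p) (P := P)) (primaryTate (JZero N) p P).subtype π₀
    (fun x => Subtype.ext (h.tateProjector_eq P x.2)) hspan (fun _ _ => rfl) (fun _ _ => rfl)
  obtain ⟨D, hD, hDinj⟩ := HD
  have hφ : ∀ i, ∃ φ : CuspForm.heckeAlgebra N 2 ({N} : Set ℕ) →+* AlgebraicClosure ℚ_[p],
      ∀ Q, D.θ i (evalAway N Q) = φ (evalFree hNS Q) := fun i =>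
    exists_ringHom_comp (evalAway N) (evalFree hNS) (evalFree_surjective hNS) (D.θ i)
      fun Q hQ => (hD i (evalAway N Q) 0
        ((tateEnd_evalAway_eq_zero hN hQ).trans (map_zero act).symm)).trans (map_zero (D.θ i))
  refine ⟨D, hDinj, hφ, fun i q hq hqN => ?_⟩
  have Hφ := hφ i
  obtain ⟨φ, hφi⟩ := Hφ
  have hT : awayTq N q = evalAway N (FreeAlgebra.ι ℤ ⟨⟨q, hq⟩, hqN⟩) := by
    rw [awayTq_eq N hq hqN, evalAway, FreeAlgebra.lift_ι_apply]
  have hθT := (congrArg (D.θ i) hT).trans (hφi _)
  rw [hθT]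
  have hne : ∀ ε : ℤ, |ε| = 1 → φ (evalFree hNS (FreeAlgebra.ι ℤ ⟨⟨q, hq⟩, hqN⟩))
      ≠ ((ε * (q + 1) : ℤ) : AlgebraicClosure ℚ_[p]) := by
    intro ε hε hcon
    obtain ⟨z, D₀, hD₀, hrel⟩ := exists_mul_add_intCast_eq_zero hN hq hqN ε hε
    have h1 := congrArg φ hrel
    rw [evalFree, FreeAlgebra.lift_ι_apply] at hcon
    rw [map_add, map_mul, map_sub, map_intCast, map_intCast, hcon, sub_self, zero_mul, zero_add,
      map_zero] at h1
    exact hD₀ (Int.cast_eq_zero.mp h1)
  refine ⟨?_, ?_⟩
  · simpa using hne 1 (by simp)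
  · simpa using hne (-1) (by simp)

end Fermat.Agent.EisensteinTate
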