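import Mathlib.NumberTheory.Padics.RingHoms
import Mathlib.LinearAlgebra.Dimension.Constructions
import Mathlib.GroupTheory.OrderOfElement
import Mathlib.Algebra.Module.ZMod
import Mathlib.Algebra.Field.ZMod
import Mathlib.LinearAlgebra.Basis.VectorSpace
import Mathlib.LinearAlgebra.FiniteDimensional.Basic
import Fermat.Agent.CarayolReduction.TateMap

/-!
# The `p`-adic Tate module of a torsion group of constant rank

The `p`-adic Tate module of an abelian group whose `p^n`-torsion has `p^(D n)` elements for all
`n`: it is a free `ℤ_p`-module of rank `D`, and its `n`-th projection is onto the `p^n`-torsion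
with kernel `p^n` times the module.
-/

noncomputable section

namespace Fermat.Agent.EisensteinTate

open CarayolReduction (tateModule tateModule_pow_smul tateModule_pow_smul_add
  tateModule_eq_zero_of_pow_smul)

variable {J : Type*} [AddCommGroup J] {p : ℕ}

/-- The elements killed by `m`. -/
def tors (J : Type*) [AddCommGroup J] (m : ℕ) : AddSubgroup J :=
  (nsmulAddMonoidHom (α := J) m).ker

/-- Membership in the `m`-torsion. -/
lemma mem_tors {m : ℕ} {x : J} : x ∈ tors J m ↔ m • x = 0 := Iff.rfl

/-- The torsion counting hypothesis. -/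
structure HasTorsionRank (J : Type*) [AddCommGroup J] (p D : ℕ) : Prop where
  card : ∀ n : ℕ, Nat.card (tors J (p ^ n)) = p ^ (D * n)

/-- Multiples of an `m`-torsion element only depend on the multiplier modulo `m`. -/
lemma nsmul_congr {m a b : ℕ} {x : J} (hx : m • x = 0) (h : (a : ZMod m) = b) :
    a • x = b • x := by
  rw [ZMod.natCast_eq_natCast_iff] at h
  rw [nsmul_eq_nsmul_iff_modEq]
  exact h.of_dvd (addOrderOf_dvd_of_nsmul_eq_zero hx)

section Module

variable [Fact p.Prime]

instance instSMulPadicTate : SMul ℤ_[p] (tateModule J p) where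
  smul a x := ⟨fun n => (PadicInt.toZModPow n a).val • x.1 n, by
    refine ⟨by simp [x.2.1], fun n => ?_⟩
    show p • (PadicInt.toZModPow (n + 1) a).val • x.1 (n + 1)
      = (PadicInt.toZModPow n a).val • x.1 n
    rw [smul_comm, x.2.2]
    refine nsmul_congr (tateModule_pow_smul x n) ?_
    rw [ZMod.natCast_zmod_val, ← PadicInt.cast_toZModPow n (n + 1) (Nat.le_succ n) a,
      ZMod.cast_eq_val]⟩

/-- The action of a `p`-adic integer, level by level. -/
lemma padic_smul_apply (a : ℤ_[p]) (x : tateModule J p) (n : ℕ) :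
    (a • x).1 n = (PadicInt.toZModPow n a).val • x.1 n := rfl

/-- The action of a `p`-adic integer computed with any representative. -/
lemma padic_smul_apply_of_eq {a : ℤ_[p]} {x : tateModule J p} {n m : ℕ}
    (h : PadicInt.toZModPow n a = (m : ZMod (p ^ n))) : (a • x).1 n = m • x.1 n :=
  nsmul_congr (tateModule_pow_smul x n) (by rw [ZMod.natCast_zmod_val, h])

instance instModulePadicTate : Module ℤ_[p] (tateModule J p) where
  one_smul x := Subtype.ext <| funext fun n => by
    rw [padic_smul_apply_of_eq (m := 1) (by simp), one_nsmul]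
  mul_smul a b x := Subtype.ext <| funext fun n => by
    rw [padic_smul_apply_of_eq
      (m := (PadicInt.toZModPow n a).val * (PadicInt.toZModPow n b).val) (by simp),
      mul_nsmul', padic_smul_apply, padic_smul_apply]
  smul_zero a := Subtype.ext <| funext fun n => by
    rw [padic_smul_apply]; exact nsmul_zero _
  smul_add a x y := Subtype.ext <| funext fun n => by
    show (a • (x + y)).1 n = (a • x).1 n + (a • y).1 n
    simp only [padic_smul_apply]
    exact nsmul_add _ _ _
  add_smul a b x := Subtype.ext <| funext fun n => by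
    show ((a + b) • x).1 n = (a • x).1 n + (b • x).1 n
    rw [padic_smul_apply_of_eq
      (m := (PadicInt.toZModPow n a).val + (PadicInt.toZModPow n b).val) (by simp),
      add_nsmul, padic_smul_apply, padic_smul_apply]
  zero_smul x := Subtype.ext <| funext fun n => by
    rw [padic_smul_apply_of_eq (m := 0) (by simp), zero_nsmul]; rfl

/-- The action of a natural number is multiplication. -/
lemma natCast_padic_smul (m : ℕ) (x : tateModule J p) (n : ℕ) :
    ((m : ℤ_[p]) • x).1 n = m • x.1 n :=
  padic_smul_apply_of_eq (map_natCast _ _)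

variable (J p) in
/-- The `n`-th component. -/
def proj (n : ℕ) : tateModule J p →+ tors J (p ^ n) where
  toFun x := ⟨x.1 n, tateModule_pow_smul x n⟩
  map_zero' := rfl
  map_add' _ _ := rfl

omit [Fact p.Prime] in
/-- The value of the projection. -/
@[simp] lemma coe_proj (n : ℕ) (x : tateModule J p) : (proj J p n x : J) = x.1 n := rfl

/-- The projection is compatible with `p`-adic scalars. -/
lemma proj_padic_smul (n : ℕ) (a : ℤ_[p]) (x : tateModule J p) :
    proj J p n (a • x) = (PadicInt.toZModPow n a).val • proj J p n x := rfl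

/-- A Tate vector vanishing at level `n` is `p^n` times a Tate vector. -/
theorem exists_eq_pow_smul {n : ℕ} {x : tateModule J p} (h : x.1 n = 0) :
    ∃ y : tateModule J p, x = (p : ℤ_[p]) ^ n • y := by
  refine ⟨⟨fun k => x.1 (n + k), h, fun k => x.2.2 (n + k)⟩, Subtype.ext (funext fun k => ?_)⟩
  rw [← Nat.cast_pow, natCast_padic_smul]
  show x.1 k = p ^ n • x.1 (n + k)
  rw [add_comm n k, tateModule_pow_smul_add]

end Module

omit [AddCommGroup J] in
/-- A finite `𝔽_p`-vector space with `p^D` elements is generated by `D` vectors. -/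
theorem exists_generators_zmod {A : Type*} [AddCommGroup A] [Fact p.Prime] [Finite A]
    [Module (ZMod p) A] {D : ℕ} (hc : Nat.card A = p ^ D) :
    ∃ u : Fin D → A, ∀ x : A, ∃ c : Fin D → ℕ, ∑ i, c i • u i = x := by
  have hd : Module.finrank (ZMod p) A = D := by
    have := Nat.card_congr (Module.finBasis (ZMod p) A).equivFun.toEquiv
    rw [Nat.card_fun, Nat.card_fin, Nat.card_zmod, hc] at this
    exact (Nat.pow_right_injective (Fact.out : p.Prime).two_le this).symm
  let b := Module.finBasisOfFinrankEq (ZMod p) A hd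
  refine ⟨b, fun x => ⟨fun i => (b.repr x i).val, ?_⟩⟩
  conv_rhs => rw [← b.sum_repr x]
  exact Finset.sum_congr rfl fun i _ => by
    rw [← Nat.cast_smul_eq_nsmul (ZMod p), ZMod.natCast_zmod_val]

namespace HasTorsionRank

variable {D : ℕ} [Fact p.Prime] (h : HasTorsionRank J p D)

include h

/-- The torsion of `p`-power order is finite. -/
theorem finite_tors (n : ℕ) : Finite (tors J (p ^ n)) :=
  Nat.finite_of_card_ne_zero (by rw [h.card]; exact pow_ne_zero _ (Fact.out : p.Prime).ne_zero)

/-- Multiplication by `p` maps the `p^(n+1)`-torsion onto the `p^n`-torsion. -/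
theorem exists_smul_eq {n : ℕ} {x : J} (hx : p ^ n • x = 0) :
    ∃ y : J, p ^ (n + 1) • y = 0 ∧ p • y = x := by
  have := h.finite_tors (n + 1)
  have := h.finite_tors n
  let f : tors J (p ^ (n + 1)) →+ tors J (p ^ n) :=
    { toFun := fun y => ⟨p • (y : J), by
        rw [mem_tors, ← mul_nsmul, ← pow_succ']; exact y.2⟩
      map_zero' := Subtype.ext (nsmul_zero _)
      map_add' := fun a b => Subtype.ext (nsmul_add _ _ _) }
  let e : f.ker ≃ tors J (p ^ 1) :=
    { toFun := fun y => ⟨(y.1 : J), by
        rw [mem_tors, pow_one]; exact congrArg Subtype.val y.2⟩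
      invFun := fun y => ⟨⟨(y : J), by
        have hy : p • (y : J) = 0 := by simpa [mem_tors] using y.2
        rw [mem_tors, pow_succ', mul_nsmul, hy, nsmul_zero]⟩, Subtype.ext (by
        have hy : p • (y : J) = 0 := by simpa [mem_tors] using y.2
        exact hy)⟩
      left_inv := fun y => rfl
      right_inv := fun y => rfl }
  have hcard := AddSubgroup.card_eq_card_quotient_mul_card_addSubgroup f.ker
  rw [Nat.card_congr e, h.card, h.card, mul_one,
    Nat.card_congr (QuotientAddGroup.quotientKerEquivRange f).toEquiv] at hcard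
  have hsurj : f.range = ⊤ := by
    refine AddSubgroup.eq_top_of_card_eq _ (Nat.eq_of_mul_eq_mul_right
      (pow_pos (Fact.out : p.Prime).pos D) ?_)
    rw [← hcard, h.card, ← pow_add]
    congr 1
  obtain ⟨y, hy⟩ : (⟨x, hx⟩ : tors J (p ^ n)) ∈ f.range := hsurj ▸ AddSubgroup.mem_top _
  exact ⟨y, y.2, congrArg Subtype.val hy⟩

/-- The projections are surjective. -/
theorem proj_surjective (n : ℕ) : Function.Surjective (proj J p n) := by
  rintro ⟨x, hx⟩
  have step : ∀ (m : ℕ) (z : {z : J // p ^ m • z = 0}),
      ∃ w : {w : J // p ^ (m + 1) • w = 0}, p • (w : J) = z := fun m z => by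
    obtain ⟨w, hw, hwz⟩ := h.exists_smul_eq z.2
    exact ⟨⟨w, hw⟩, hwz⟩
  choose g hg using step
  let up : ∀ k : ℕ, {z : J // p ^ (n + k) • z = 0} := fun k =>
    Nat.rec (motive := fun k => {z : J // p ^ (n + k) • z = 0}) ⟨x, hx⟩
      (fun k z => g (n + k) z) k
  have hup : ∀ k : ℕ, p • (up (k + 1) : J) = (up k : J) := fun k => by exact hg (n + k) (up k)
  have hiter : ∀ k j, p ^ j • (up (k + j) : J) = up k := by
    intro k j
    induction j with
    | zero => simp
    | succ j ih =>
      show p ^ (j + 1) • (up (k + j + 1) : J) = up k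
      rw [pow_succ, mul_nsmul', hup, ih]
  refine ⟨⟨fun m => p ^ n • (up m : J), ?_, fun m => ?_⟩, Subtype.ext ?_⟩
  · show p ^ n • x = 0
    exact hx
  · rw [smul_comm, hup]
  · show p ^ n • (up n : J) = x
    have := hiter 0 n
    rwa [zero_add] at this

/-- Vectors lifting an `𝔽_p`-basis of the `p`-torsion. -/
theorem exists_generators :
    ∃ e : Fin D → tateModule J p, ∀ x : J, p ^ 1 • x = 0 →
      ∃ c : Fin D → ℕ, ∑ i, c i • (e i).1 1 = x := by
  have := h.finite_tors 1
  have hp1 : ∀ x : tors J (p ^ 1), p • x = 0 := fun x => Subtype.ext (by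
    show p • (x : J) = 0
    simpa [mem_tors] using x.2)
  let : Module (ZMod p) (tors J (p ^ 1)) := AddCommGroup.zmodModule hp1
  obtain ⟨u, hu⟩ := exists_generators_zmod (p := p) (A := tors J (p ^ 1)) (D := D)
    (by rw [h.card, mul_one])
  choose e he using fun i => h.proj_surjective 1 (u i)
  refine ⟨e, fun x hx => ?_⟩
  obtain ⟨c, hc⟩ := hu ⟨x, hx⟩
  refine ⟨c, ?_⟩
  have hs : ((∑ i, c i • u i : tors J (p ^ 1)) : J) = x := congrArg Subtype.val hc
  rw [AddSubgroup.val_finsetSum] at hs
  rw [← hs]
  refine Finset.sum_congr rfl fun i _ => ?_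
  rw [← coe_proj 1 (e i), he i, AddSubgroup.coe_nsmul]

/-- The Tate module is free of rank `D`. -/
theorem exists_basis : Nonempty ((Fin D → ℤ_[p]) ≃ₗ[ℤ_[p]] tateModule J p) := by
  obtain ⟨e, he⟩ := h.exists_generators
  -- lifts of a basis span every level
  have span : ∀ n, ∀ x : J, p ^ n • x = 0 →
      ∃ c : Fin D → ℕ, ∑ i, c i • (e i).1 n = x := by
    intro n
    induction n with
    | zero => intro x hx; exact ⟨0, by simpa [eq_comm] using hx⟩
    | succ n ih =>
      intro x hx
      obtain ⟨c, hc⟩ := he (p ^ n • x) (by rw [← mul_nsmul, pow_one, ← pow_succ]; exact hx)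
      obtain ⟨c', hc'⟩ := ih (x - ∑ i, c i • (e i).1 (n + 1)) (by
        rw [nsmul_sub, Finset.smul_sum, sub_eq_zero, ← hc]
        refine (Finset.sum_congr rfl fun i _ => ?_).symm
        rw [smul_comm, add_comm n 1, tateModule_pow_smul_add])
      refine ⟨fun i => c i + c' i * p, ?_⟩
      simp only [add_nsmul, mul_nsmul', Finset.sum_add_distrib, (e _).2.2, hc']
      rw [add_sub_cancel]
  have bij : ∀ n, Function.Bijective fun c : Fin D → ZMod (p ^ n) =>
      (∑ i, (c i).val • proj J p n (e i) : tors J (p ^ n)) := by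
    intro n
    have := h.finite_tors n
    refine Function.Surjective.bijective_of_nat_card_le (fun x => ?_) ?_
    · obtain ⟨c, hc⟩ := span n x x.2
      refine ⟨fun i => (c i : ZMod (p ^ n)), Subtype.ext ?_⟩
      rw [AddSubgroup.val_finsetSum, ← hc]
      refine Finset.sum_congr rfl fun i _ => ?_
      rw [AddSubgroup.coe_nsmul, coe_proj]
      exact nsmul_congr (tateModule_pow_smul _ n) (ZMod.natCast_zmod_val _)
    · rw [h.card, Nat.card_eq_fintype_card, Fintype.card_fun, ZMod.card, Fintype.card_fin,
        ← pow_mul, mul_comm]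
  let f : (Fin D → ℤ_[p]) →ₗ[ℤ_[p]] tateModule J p := Fintype.linearCombination ℤ_[p] e
  have hf : ∀ a n, proj J p n (f a) = ∑ i, (PadicInt.toZModPow n (a i)).val • proj J p n (e i) := by
    intro a n
    simp only [f, Fintype.linearCombination_apply, map_sum, proj_padic_smul]
  refine ⟨LinearEquiv.ofBijective f ⟨?_, ?_⟩⟩
  · rw [injective_iff_map_eq_zero]
    intro a ha
    funext i
    refine PadicInt.ext_of_toZModPow.mp fun n => ?_
    have hz : (fun i => PadicInt.toZModPow n (a i)) = (0 : Fin D → ZMod (p ^ n)) := by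
      apply (bij n).1
      simp only [← hf, ha, map_zero, Pi.zero_apply, ZMod.val_zero, zero_nsmul, Finset.sum_const_zero]
    rw [Pi.zero_apply, map_zero]
    exact congrFun hz i
  · intro x
    choose c hc using fun n => (bij n).2 (proj J p n x)
    have hstep : ∀ n i, ((c (n + 1) i).val : ZMod (p ^ n)) = c n i := by
      intro n
      refine congrFun ((bij n).1 ?_)
      rw [hc n]
      refine Subtype.ext ?_
      have h1 := congrArg (fun y : tors J (p ^ (n + 1)) => p • (y : J)) (hc (n + 1))
      simp only [coe_proj, x.2.2, AddSubgroup.val_finsetSum, AddSubgroup.coe_nsmul,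
        Finset.smul_sum] at h1
      rw [coe_proj, ← h1, AddSubgroup.val_finsetSum]
      refine Finset.sum_congr rfl fun i _ => ?_
      rw [AddSubgroup.coe_nsmul, coe_proj, smul_comm, (e i).2.2]
      exact nsmul_congr (tateModule_pow_smul _ n) (ZMod.natCast_zmod_val _)
    have hdvd : ∀ i n, (p : ℤ) ^ n ∣ ((c (n + 1) i).val : ℤ) - (c n i).val := by
      intro i n
      rw [← Nat.cast_pow, ← ZMod.intCast_eq_intCast_iff_dvd_sub]
      push_cast
      rw [ZMod.natCast_zmod_val, hstep]
    refine ⟨fun i => PadicInt.ofIntSeq _ (PadicInt.isCauSeq_padicNorm_of_pow_dvd_sub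
      (fun n => ((c n i).val : ℤ)) p (hdvd i)), Subtype.ext (funext fun n => ?_)⟩
    rw [← coe_proj, ← coe_proj (x := x), hf, ← hc n]
    congr 2
    funext i
    rw [PadicInt.toZModPow_ofIntSeq_of_pow_dvd_sub (hi := hdvd i)]
    push_cast
    rw [ZMod.natCast_zmod_val]

/-- The Tate module is free. -/
theorem free : Module.Free ℤ_[p] (tateModule J p) := by
  obtain ⟨b⟩ := h.exists_basis
  exact Module.Free.of_equiv b

/-- The Tate module is finitely generated over `ℤ_p`. -/
theorem finite : Module.Finite ℤ_[p] (tateModule J p) := by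
  obtain ⟨b⟩ := h.exists_basis
  exact Module.Finite.equiv b

/-- The Tate module has rank `D`. -/
theorem finrank_eq : Module.finrank ℤ_[p] (tateModule J p) = D := by
  obtain ⟨b⟩ := h.exists_basis
  rw [← b.finrank_eq, Module.finrank_fin_fun]

end HasTorsionRank

end Fermat.Agent.EisensteinTate
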